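import Mathlib
import Fermat.Prelude.Def_ModularCurve_ArithmeticGalois
import Fermat.Agent.S24.Places
import Fermat.Agent.S24.PlacesPrincipal

/-!
# Program G, package G/Desc (descent `L → K`, e.g. `ℂ → Q̄`): definitions

Setting: `K ⊆ L` algebraically closed fields of characteristic zero, `F₀ ⊆ ℚ((q))` a subfield
containing `jq`, `F_K := laurentBaseChange K F₀ ⊆ K((q))`, `F_L := laurentBaseChange L F₀ ⊆ L((q))`.

* `gdIota K L F₀ : F_K →+* F_L` : coefficientwise base change.
* `gdJ L F₀ hj : F_L` : the function `j`.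
* `GdDiv K F n x` : `n ∣ ord_P x` for every place `P` of `F / K` (the Kummer group `W_n(F)`).
* `GdRel n x y` : `y = x * g ^ n` for some `g ≠ 0` (same class in `F^× / F^{× n}`).
* `gdPole F j P` : the multiplicity of `P` in the polar divisor `C_j` of `j`.
* `GdBdd F j n m x` : `div x ≥ - n m C_j`.
* `GdCanon F j n x` : `x` is THE canonical representative of its class `x F^{× n}`:
  leading `q`-coefficient `1`, `div x ≥ - n m C_j` with `m` minimal for the class, and the
  `q`-order of `x` maximal among the members of the class with `div ≥ - n m C_j`.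
-/

set_option autoImplicit false

noncomputable section

namespace Fermat.Agent.G

open ModularCurve AlgebraicCurve HahnSeries

section Iota

variable (K L : Type*) [Field K] [Field L] [Algebra K L] [Algebra ℚ K] [Algebra ℚ L]
variable (F₀ : IntermediateField ℚ (LaurentSeries ℚ))

theorem gd_coeffEmb_eq (w : LaurentSeries ℚ) :
    coeffMap (algebraMap K L) (coeffEmb K w) = coeffEmb L w := by
  rw [coeffEmb, coeffEmb, coeffMap_coeffMap]
  exact coeffMap_congr (Subsingleton.elim _ _) w

omit [Algebra ℚ K] [Algebra ℚ L] in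
theorem gd_coeffMap_algebraMap (c : K) :
    coeffMap (algebraMap K L) (algebraMap K (LaurentSeries K) c) =
      algebraMap L (LaurentSeries L) (algebraMap K L c) := by
  rw [algebraMap_laurentSeries_eq_single, algebraMap_laurentSeries_eq_single, coeffMap_single]

variable {K} in
/-- coefficientwise base change maps `F₀ ⊗ K` into `F₀ ⊗ L`. -/
theorem gd_coeffMap_mem {x : LaurentSeries K} (hx : x ∈ laurentBaseChange K F₀) :
    coeffMap (algebraMap K L) x ∈ laurentBaseChange L F₀ := by
  rw [mem_laurentBaseChange_iff] at hx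
  induction hx using Subfield.closure_induction with
  | mem y hy =>
      rcases hy with ⟨a, rfl⟩ | ⟨z, hz, rfl⟩
      · rw [gd_coeffMap_algebraMap]
        exact (laurentBaseChange L F₀).algebraMap_mem _
      · rw [gd_coeffEmb_eq]
        exact coeffEmb_mem_laurentBaseChange L hz
  | one => simp
  | add x y _ _ hx hy => simpa using add_mem hx hy
  | neg x _ hx => simpa using neg_mem hx
  | inv x _ hx => simpa using inv_mem hx
  | mul x y _ _ hx hy => simpa using mul_mem hx hy

/-- coefficientwise base change `F₀ ⊗ K → F₀ ⊗ L`. -/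
def gdIota : laurentBaseChange K F₀ →+* laurentBaseChange L F₀ :=
  ((coeffMap (algebraMap K L)).comp (laurentBaseChange K F₀).val.toRingHom).codRestrict
    (laurentBaseChange L F₀) (fun x => gd_coeffMap_mem L F₀ x.2)

@[simp]
theorem coe_gdIota (x : laurentBaseChange K F₀) :
    ((gdIota K L F₀ x : laurentBaseChange L F₀) : LaurentSeries L) =
      coeffMap (algebraMap K L) (x : LaurentSeries K) := rfl

theorem gdIota_algebraMap (c : K) :
    gdIota K L F₀ (algebraMap K (laurentBaseChange K F₀) c) =
      algebraMap L (laurentBaseChange L F₀) (algebraMap K L c) :=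
  Subtype.ext (gd_coeffMap_algebraMap K L c)

/-- the function `j` in `F₀ ⊗ L`. -/
def gdJ (hj : jq ∈ F₀) : laurentBaseChange L F₀ :=
  ⟨coeffEmb L jq, coeffEmb_mem_laurentBaseChange L hj⟩

@[simp]
theorem coe_gdJ (hj : jq ∈ F₀) : ((gdJ L F₀ hj : laurentBaseChange L F₀) : LaurentSeries L) =
    coeffEmb L jq := rfl

theorem gdIota_gdJ (hj : jq ∈ F₀) : gdIota K L F₀ (gdJ K F₀ hj) = gdJ L F₀ hj :=
  Subtype.ext (gd_coeffEmb_eq K L jq)

end Iota

section Kummer

/-- `x ∈ W_n(F)`: all orders of `x` are divisible by `n`. -/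
def GdDiv (K F : Type*) [Field K] [Field F] [Algebra K F] (n : ℕ) (x : F) : Prop :=
  ∀ P : Place K F, (n : ℤ) ∣ P.ord x

/-- `y ∈ x F^{× n}`. -/
def GdRel {F : Type*} [Field F] (n : ℕ) (x y : F) : Prop :=
  ∃ g : F, g ≠ 0 ∧ y = x * g ^ n

end Kummer

section Canon

variable {L : Type*} [Field L] (F : IntermediateField L (LaurentSeries L)) (j : F)

/-- the multiplicity of `P` in the polar divisor of `j`. -/
def gdPole (P : Place L F) : ℤ := max 0 (-(P.ord j))

/-- `div x ≥ - n m C_j`. -/
def GdBdd (n m : ℕ) (x : F) : Prop :=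
  ∀ P : Place L F, -(((n * m : ℕ) : ℤ)) * gdPole F j P ≤ P.ord x

/-- `x` is the canonical representative of its class modulo `n`-th powers. -/
structure GdCanon (n : ℕ) (x : F) : Prop where
  ne_zero : x ≠ 0
  lead : (x : LaurentSeries L).leadingCoeff = 1
  exists_bdd : ∃ m : ℕ, GdBdd F j n m x ∧
    (∀ (m' : ℕ) (y : F), GdRel n x y → GdBdd F j n m' y → m ≤ m') ∧
    (∀ y : F, GdRel n x y → GdBdd F j n m y →
      (y : LaurentSeries L).order ≤ (x : LaurentSeries L).order)

end Canon

section Galois

variable {K L : Type*} [Field K] [Field L] [Algebra K L] [Algebra ℚ K] [Algebra ℚ L]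
  [IsScalarTower ℚ K L]
variable (F₀ : IntermediateField ℚ (LaurentSeries ℚ))

/-- the semilinear automorphism of `F₀ ⊗ L` attached to `σ ∈ Aut(L/K)`. -/
def gdAct (σ : L ≃ₐ[K] L) : SemilinearAut L (laurentBaseChange L F₀) :=
  arithmeticGalois F₀ (σ.restrictScalars ℚ)

theorem coe_gdAct_smul (σ : L ≃ₐ[K] L) (x : laurentBaseChange L F₀) :
    ((gdAct F₀ σ • x : laurentBaseChange L F₀) : LaurentSeries L) =
      coeffMap (σ : L →+* L) (x : LaurentSeries L) := rfl

end Galois

end Fermat.Agent.G
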