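import Mathlib
import Fermat.Agent.G.Desc.Defs

/-!
# Program G, package G/Desc, row B12: base change of the function field does not raise degrees

* `gdbd_map_adjoin_mem` : a ring homomorphism `ι : F → F'` compatible with `k → l` maps `k(t)`
  into `l(ι t)`;
* `gdbd_finrank_le` (abstract): if `F'` is generated as a field by `l` and `ι(F)` and `F / k(t)` is
  finite, then `F' / l(ι t)` is finite and `[F' : l(ι t)] ≤ [F : k(t)]`;
* `gd_isSepGen` (B1), `gd_finrank_le` (B2) VERBATIM from `G/Desc/Spec.lean`.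
-/

set_option autoImplicit false
set_option linter.unusedSectionVars false
set_option linter.unusedVariables false
set_option linter.style.haveILetI false

noncomputable section

namespace Fermat.Agent.G

open ModularCurve AlgebraicCurve HahnSeries IntermediateField Fermat.Agent.S24

section Abstract

variable {k l F F' : Type*} [Field k] [Field l] [Field F] [Field F'] [Algebra k l] [Algebra k F]
  [Algebra l F']

/-- `ι` maps `k(t)` into `l(ι t)`. -/
theorem gdbd_map_adjoin_mem (ι : F →+* F')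
    (hι : ∀ c : k, ι (algebraMap k F c) = algebraMap l F' (algebraMap k l c)) (t : F)
    {x : F} (hx : x ∈ k⟮t⟯) : ι x ∈ l⟮ι t⟯ := by
  induction hx using IntermediateField.adjoin_induction with
  | mem x hx =>
    rw [Set.mem_singleton_iff] at hx
    subst hx
    exact mem_adjoin_simple_self l _
  | algebraMap c =>
    rw [hι]
    exact IntermediateField.algebraMap_mem _ _
  | add x y _ _ hx hy =>
    rw [map_add]
    exact add_mem hx hy
  | inv x _ hx =>
    rw [map_inv₀]
    exact inv_mem hx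
  | mul x y _ _ hx hy =>
    rw [map_mul]
    exact mul_mem hx hy

/-- a generating set over `l` generates over every intermediate field. -/
theorem gdbd_adjoin_top (E : IntermediateField l F') (S : Set F')
    (h : IntermediateField.adjoin l S = ⊤) : IntermediateField.adjoin E S = ⊤ := by
  rw [eq_top_iff]
  intro y _
  have h2 : IntermediateField.adjoin l S ≤ (IntermediateField.adjoin E S).restrictScalars l := by
    rw [IntermediateField.adjoin_le_iff]
    intro z hz
    have : z ∈ IntermediateField.adjoin E S := IntermediateField.subset_adjoin E S hz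
    exact this
  rw [h] at h2
  have h3 : y ∈ (IntermediateField.adjoin E S).restrictScalars l :=
    h2 (mem_top : y ∈ (⊤ : IntermediateField l F'))
  exact h3

/-- degrees do not grow under base change (abstract form). -/
theorem gdbd_finrank_le (ι : F →+* F')
    (hι : ∀ c : k, ι (algebraMap k F c) = algebraMap l F' (algebraMap k l c)) (t : F)
    (hfin : FiniteDimensional k⟮t⟯ F)
    (hgen : IntermediateField.adjoin l (Set.range ι) = ⊤) :
    FiniteDimensional l⟮ι t⟯ F' ∧ Module.finrank l⟮ι t⟯ F' ≤ Module.finrank k⟮t⟯ F := by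
  -- the tower `k(t) → l(ι t) → F'`
  let ι₀ : k⟮t⟯ →+* l⟮ι t⟯ :=
    (ι.comp (algebraMap k⟮t⟯ F)).codRestrict (l⟮ι t⟯) (fun x => gdbd_map_adjoin_mem ι hι t x.2)
  letI : Algebra k⟮t⟯ F' := (ι.comp (algebraMap k⟮t⟯ F)).toAlgebra
  letI : Algebra k⟮t⟯ l⟮ι t⟯ := ι₀.toAlgebra
  haveI : IsScalarTower k⟮t⟯ l⟮ι t⟯ F' := IsScalarTower.of_algebraMap_eq (fun x => rfl)
  let f : F →ₐ[k⟮t⟯] F' := { ι with commutes' := fun x => rfl }
  let M : IntermediateField k⟮t⟯ F' := f.fieldRange
  have hcoe : (M : Set F') = Set.range ι := by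
    ext y
    simp only [SetLike.mem_coe, Set.mem_range]
    rfl
  let e : F ≃ₗ[k⟮t⟯] M := (AlgEquiv.ofInjectiveField f).toLinearEquiv
  haveI : FiniteDimensional k⟮t⟯ M := Module.Finite.equiv e
  have hrk : Module.finrank k⟮t⟯ M = Module.finrank k⟮t⟯ F := e.finrank_eq.symm
  have h1 : Module.rank l⟮ι t⟯ (adjoin l⟮ι t⟯ (M : Set F')) ≤ Module.rank k⟮t⟯ M :=
    adjoin_rank_le_of_isAlgebraic_right (l⟮ι t⟯) M
  have htop : adjoin l⟮ι t⟯ (M : Set F') = ⊤ := by
    rw [hcoe]
    exact gdbd_adjoin_top _ _ hgen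
  rw [htop, IntermediateField.rank_top'] at h1
  have h3 : Module.rank k⟮t⟯ M < Cardinal.aleph0 := Module.rank_lt_aleph0 _ _
  have h4 : Module.rank l⟮ι t⟯ F' < Cardinal.aleph0 := lt_of_le_of_lt h1 h3
  refine ⟨Module.rank_lt_aleph0_iff.mp h4, ?_⟩
  rw [← hrk]
  exact Cardinal.toNat_le_toNat h1 h3

end Abstract

section Gen

variable {K L : Type*} [Field K] [Field L] [Algebra K L] [Algebra ℚ K] [Algebra ℚ L]
variable (F₀ : IntermediateField ℚ (LaurentSeries ℚ)) (hj : jq ∈ F₀)

/-- `F₀ ⊗ L` is generated as a field by `L` and the image of `F₀ ⊗ K`. -/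
theorem gdbd_gen : IntermediateField.adjoin L (Set.range (gdIota K L F₀)) = ⊤ := by
  rw [eq_top_iff]
  rintro ⟨x, hx⟩ -
  have hx' := mem_laurentBaseChange_iff.mp hx
  suffices h : ∀ (y : LaurentSeries L)
      (hy : y ∈ Subfield.closure (Set.range (algebraMap L (LaurentSeries L)) ∪
          (⇑(coeffEmb L) '' (F₀ : Set (LaurentSeries ℚ))))),
      ∃ w : laurentBaseChange L F₀,
        w ∈ IntermediateField.adjoin L (Set.range (gdIota K L F₀)) ∧ (w : LaurentSeries L) = y by
    obtain ⟨w, hw, hwx⟩ := h x hx'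
    have : (⟨x, hx⟩ : laurentBaseChange L F₀) = w := Subtype.ext hwx.symm
    rw [this]
    exact hw
  intro y hy
  induction hy using Subfield.closure_induction with
  | mem y hy =>
    rcases hy with ⟨a, rfl⟩ | ⟨z, hz, rfl⟩
    · exact ⟨algebraMap L (laurentBaseChange L F₀) a,
        (IntermediateField.adjoin L (Set.range (gdIota K L F₀))).algebraMap_mem a, rfl⟩
    · refine ⟨⟨coeffEmb L z, coeffEmb_mem_laurentBaseChange L hz⟩, ?_, rfl⟩
      apply IntermediateField.subset_adjoin
      exact ⟨⟨coeffEmb K z, coeffEmb_mem_laurentBaseChange K hz⟩,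
        Subtype.ext (gd_coeffEmb_eq K L z)⟩
  | one => exact ⟨1, one_mem _, rfl⟩
  | add x y _ _ ihx ihy =>
    obtain ⟨w, hw, rfl⟩ := ihx
    obtain ⟨w', hw', rfl⟩ := ihy
    exact ⟨w + w', add_mem hw hw', rfl⟩
  | neg x _ ih =>
    obtain ⟨w, hw, rfl⟩ := ih
    exact ⟨-w, neg_mem hw, rfl⟩
  | inv x _ ih =>
    obtain ⟨w, hw, rfl⟩ := ih
    exact ⟨w⁻¹, inv_mem hw, IntermediateField.coe_inv _ _⟩
  | mul x y _ _ ihx ihy =>
    obtain ⟨w, hw, rfl⟩ := ihx
    obtain ⟨w', hw', rfl⟩ := ihy
    exact ⟨w * w', mul_mem hw hw', rfl⟩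

/-- `j` is not a constant. -/
theorem gdbd_transcendental_gdJ [IsAlgClosed L] : Transcendental L (gdJ L F₀ hj) := by
  intro halg
  have hint : IsIntegral L (gdJ L F₀ hj) := halg.isIntegral
  have hdeg : (minpoly L (gdJ L F₀ hj)).degree = 1 :=
    IsAlgClosed.degree_eq_one_of_irreducible L (minpoly.irreducible hint)
  obtain ⟨c, hc⟩ := minpoly.mem_range_of_degree_eq_one L (gdJ L F₀ hj) hdeg
  have h1 : ((algebraMap L (laurentBaseChange L F₀) c : laurentBaseChange L F₀) :
      LaurentSeries L).coeff (-1) = (coeffEmb L jq).coeff (-1) := by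
    rw [hc]; rfl
  have h2 : ((algebraMap L (laurentBaseChange L F₀) c : laurentBaseChange L F₀) :
      LaurentSeries L) = algebraMap L (LaurentSeries L) c := rfl
  rw [h2, algebraMap_laurentSeries_eq_single, coeffEmb_coeff, coeff_jq_neg_one, map_one,
    HahnSeries.coeff_single_of_ne (by norm_num)] at h1
  exact zero_ne_one h1

end Gen

section Base

variable {K L : Type*} [Field K] [Field L] [Algebra K L] [Algebra ℚ K] [Algebra ℚ L]
  [IsAlgClosed K] [IsAlgClosed L] [CharZero K] [CharZero L]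
variable (F₀ : IntermediateField ℚ (LaurentSeries ℚ)) (hj : jq ∈ F₀)

/-- (B1) `j` is a separating generator of `F₀ ⊗ L` as soon as it is one of `F₀ ⊗ K`. -/
theorem gd_isSepGen (hK : IsSepGen K (gdJ K F₀ hj)) : IsSepGen L (gdJ L F₀ hj) := by
  have h := (gdbd_finrank_le (gdIota K L F₀) (gdIota_algebraMap K L F₀) (gdJ K F₀ hj) hK.finite
    (gdbd_gen F₀)).1
  rw [gdIota_gdJ] at h
  exact IsSepGen.of_charZero (gdbd_transcendental_gdJ F₀ hj) h

/-- (B2) degrees do not grow under base change. -/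
theorem gd_finrank_le (hK : IsSepGen K (gdJ K F₀ hj)) (t : laurentBaseChange K F₀)
    (ht : Transcendental K t) :
    Module.finrank L⟮gdIota K L F₀ t⟯ (laurentBaseChange L F₀) ≤
      Module.finrank K⟮t⟯ (laurentBaseChange K F₀) :=
  (gdbd_finrank_le (gdIota K L F₀) (gdIota_algebraMap K L F₀) t (hK.of_transcendental ht).finite
    (gdbd_gen F₀)).2

end Base

end Fermat.Agent.G
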