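import Mathlib
import Fermat.Agent.G.Desc.Defs
import Fermat.Agent.S24.PlacesCenter
import Fermat.Agent.S24.PlacesPrincipal

/-!
# Program G, package G/Desc, row 503 (E1): every class of `F^× / F^{× n}` contains an element whose
poles are bounded by a multiple of the polar divisor `C_j` of `j`

`T = {P : ord_P x < 0}` (finite), `k_P := -ord_P x`, `S = {P ∈ T : 0 ≤ ord_P j}`, `a_P` the centre of
`P ∈ S` on the `j`-line, `g := ∏_{P ∈ S} (j - a_P)^(k_P)`, `m := ∑_{P ∈ T} k_P`, `y := x g^n`.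
-/

set_option autoImplicit false

noncomputable section

namespace Fermat.Agent.G

open ModularCurve AlgebraicCurve HahnSeries IntermediateField Fermat.Agent.S24

section General

variable {K F : Type*} [Field K] [Field F] [Algebra K F]

theorem gdb_ord_pow (v : Place K F) (f : F) (k : ℕ) : v.ord (f ^ k) = (k : ℤ) * v.ord f := by
  rw [← zpow_natCast, v.ord_zpow]

theorem gdb_ord_prod {ι : Type*} (v : Place K F) (s : Finset ι) (f : ι → F)
    (hf : ∀ i ∈ s, f i ≠ 0) : v.ord (∏ i ∈ s, f i) = ∑ i ∈ s, v.ord (f i) := by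
  classical
  induction s using Finset.induction_on with
  | empty => simp
  | insert a s ha ih =>
    rw [Finset.prod_insert ha, Finset.sum_insert ha,
      v.ord_mul (hf a (Finset.mem_insert_self a s))
        (Finset.prod_ne_zero_iff.mpr fun i hi => hf i (Finset.mem_insert_of_mem hi)),
      ih fun i hi => hf i (Finset.mem_insert_of_mem hi)]

/-- the ultrametric equality. -/
theorem gdb_ord_add_eq_of_lt (v : Place K F) {f g : F} (hfg : f + g ≠ 0) (hf : f ≠ 0)
    (h : v.ord f < v.ord g) : v.ord (f + g) = v.ord f := by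
  have h1 := PlaceOrd.min_le_ord_add v hfg
  rw [min_eq_left h.le] at h1
  have h2 := PlaceOrd.min_le_ord_add v (f := f + g) (g := -g) (by rwa [add_neg_cancel_right])
  rw [add_neg_cancel_right, PlaceOrd.ord_neg] at h2
  rcases min_le_iff.mp h2 with h3 | h3
  · exact le_antisymm h3 h1
  · omega

end General

section Canon

variable {L : Type*} [Field L] [IsAlgClosed L] [CharZero L]
variable (F : IntermediateField L (LaurentSeries L)) (j : F)

omit [IsAlgClosed L] [CharZero L] in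
theorem gdb_sub_ne_zero (hL : IsSepGen L j) (a : L) : j - algebraMap L F a ≠ 0 := by
  intro h
  apply hL.transcendental
  rw [sub_eq_zero] at h
  rw [h]
  exact isAlgebraic_algebraMap a

omit [IsAlgClosed L] [CharZero L] in
/-- at a pole of `j`: `ord (j - a) = ord j`. -/
theorem gdb_ord_sub_of_neg (hL : IsSepGen L j) (Q : Place L F) (hQ : Q.ord j < 0) (a : L) :
    Q.ord (j - algebraMap L F a) = Q.ord j := by
  have hj0 : j ≠ 0 := by
    rintro rfl
    rw [Place.ord_zero] at hQ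
    exact lt_irrefl _ hQ
  rw [sub_eq_add_neg]
  refine gdb_ord_add_eq_of_lt Q ?_ hj0 ?_
  · rw [← sub_eq_add_neg]; exact gdb_sub_ne_zero F j hL a
  · rw [PlaceOrd.ord_neg, PlaceOrd.ord_algebraMap]; exact hQ

omit [IsAlgClosed L] [CharZero L] in
/-- away from the poles of `j`: `0 ≤ ord (j - a)`. -/
theorem gdb_ord_sub_nonneg (hL : IsSepGen L j) (Q : Place L F) (hQ : 0 ≤ Q.ord j) (a : L) :
    0 ≤ Q.ord (j - algebraMap L F a) := by
  have h1 := PlaceOrd.min_le_ord_add Q (f := j) (g := -algebraMap L F a) (by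
    rw [← sub_eq_add_neg]; exact gdb_sub_ne_zero F j hL a)
  rw [PlaceOrd.ord_neg, PlaceOrd.ord_algebraMap, ← sub_eq_add_neg] at h1
  exact le_trans (le_min hQ le_rfl) h1

/-- (E1) every class contains an element whose poles are bounded by a multiple of `C_j`. -/
theorem gd_exists_bdd (hL : IsSepGen L j) (n : ℕ) (hn : 0 < n) (x : F) (hx : x ≠ 0) :
    ∃ (m : ℕ) (y : F), GdRel n x y ∧ GdBdd F j n m y := by
  classical
  -- the poles of `x`
  have hTfin : {P : Place L F | P.ord x < 0}.Finite :=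
    (hL.finite_ord_ne_zero hx).subset fun P hP => by
      simp only [Set.mem_setOf_eq] at hP ⊢
      omega
  set T : Finset (Place L F) := hTfin.toFinset with hT
  have hmemT : ∀ P : Place L F, P ∈ T ↔ P.ord x < 0 := fun P => by
    rw [hT, Set.Finite.mem_toFinset, Set.mem_setOf_eq]
  let k : Place L F → ℕ := fun P => (-(P.ord x)).toNat
  have hk : ∀ P : Place L F, P.ord x < 0 → ((k P : ℕ) : ℤ) = -(P.ord x) := fun P hP => by
    show (((-(P.ord x)).toNat : ℕ) : ℤ) = _
    rw [Int.toNat_of_nonneg (by omega)]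
  -- the centres
  let a : Place L F → L := fun P =>
    if h : 0 ≤ P.ord j then (hL.existsUnique_ord_sub_pos P h).exists.choose else 0
  have ha : ∀ P : Place L F, 0 ≤ P.ord j → 0 < P.ord (j - algebraMap L F (a P)) := fun P h => by
    show 0 < P.ord (j - algebraMap L F
      (if h : 0 ≤ P.ord j then (hL.existsUnique_ord_sub_pos P h).exists.choose else 0))
    rw [dif_pos h]
    exact (hL.existsUnique_ord_sub_pos P h).exists.choose_spec
  set S : Finset (Place L F) := T.filter fun P => 0 ≤ P.ord j with hS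
  set R : Finset (Place L F) := T.filter fun P => ¬ 0 ≤ P.ord j with hR
  have hsplit : ∑ P ∈ T, k P = ∑ P ∈ S, k P + ∑ P ∈ R, k P :=
    (Finset.sum_filter_add_sum_filter_not T (fun P => 0 ≤ P.ord j) k).symm
  set g : F := ∏ P ∈ S, (j - algebraMap L F (a P)) ^ k P with hg
  have hfac : ∀ P ∈ S, (j - algebraMap L F (a P)) ^ k P ≠ 0 := fun P _ =>
    pow_ne_zero _ (gdb_sub_ne_zero F j hL _)
  have hg0 : g ≠ 0 := Finset.prod_ne_zero_iff.mpr hfac
  have hordg : ∀ Q : Place L F,
      Q.ord g = ∑ P ∈ S, ((k P : ℕ) : ℤ) * Q.ord (j - algebraMap L F (a P)) := fun Q => by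
    rw [hg, gdb_ord_prod Q S _ hfac]
    exact Finset.sum_congr rfl fun P _ => gdb_ord_pow Q _ _
  refine ⟨∑ P ∈ T, k P, x * g ^ n, ⟨g, hg0, rfl⟩, ?_⟩
  intro Q
  have hordy : Q.ord (x * g ^ n) = Q.ord x + (n : ℤ) * Q.ord g := by
    rw [Q.ord_mul hx (pow_ne_zero _ hg0), gdb_ord_pow]
  rw [hordy]
  have hn1 : (1 : ℤ) ≤ (n : ℤ) := by exact_mod_cast hn
  by_cases hQ : 0 ≤ Q.ord j
  · -- not a pole of `j`
    have hpole : gdPole F j Q = 0 := by
      unfold gdPole
      rw [max_eq_left (by omega)]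
    rw [hpole, mul_zero]
    have hterm : ∀ P ∈ S, 0 ≤ ((k P : ℕ) : ℤ) * Q.ord (j - algebraMap L F (a P)) := fun P _ =>
      mul_nonneg (Int.natCast_nonneg _) (gdb_ord_sub_nonneg F j hL Q hQ _)
    by_cases hQx : Q.ord x < 0
    · have hQS : Q ∈ S := by
        rw [hS, Finset.mem_filter]
        exact ⟨(hmemT Q).mpr hQx, hQ⟩
      have h1 := Finset.single_le_sum hterm hQS
      rw [← hordg Q] at h1
      have h2 := ha Q hQ
      have h3 : ((k Q : ℕ) : ℤ) ≤ ((k Q : ℕ) : ℤ) * Q.ord (j - algebraMap L F (a Q)) := by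
        have : (0 : ℤ) ≤ ((k Q : ℕ) : ℤ) := Int.natCast_nonneg _
        nlinarith
      have h4 := hk Q hQx
      have h5 : ((k Q : ℕ) : ℤ) ≤ (n : ℤ) * Q.ord g := by
        have : (0 : ℤ) ≤ ((k Q : ℕ) : ℤ) := Int.natCast_nonneg _
        nlinarith
      linarith
    · have h1 : 0 ≤ Q.ord g := by
        rw [hordg Q]
        exact Finset.sum_nonneg hterm
      have : 0 ≤ (n : ℤ) * Q.ord g := mul_nonneg (by omega) h1
      omega
  · -- a pole of `j`
    have hQ' : Q.ord j < 0 := by omega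
    have hpole : gdPole F j Q = -(Q.ord j) := by
      unfold gdPole
      rw [max_eq_right (by omega)]
    have hg' : Q.ord g = (∑ P ∈ S, ((k P : ℕ) : ℤ)) * Q.ord j := by
      rw [hordg Q, Finset.sum_mul]
      exact Finset.sum_congr rfl fun P _ => by rw [gdb_ord_sub_of_neg F j hL Q hQ']
    rw [hpole, hg']
    push_cast
    rw [show (∑ P ∈ T, ((k P : ℕ) : ℤ)) = ∑ P ∈ S, ((k P : ℕ) : ℤ) + ∑ P ∈ R, ((k P : ℕ) : ℤ) by
      exact_mod_cast hsplit]
    have hRnn : (0 : ℤ) ≤ ∑ P ∈ R, ((k P : ℕ) : ℤ) :=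
      Finset.sum_nonneg fun P _ => Int.natCast_nonneg _
    have hSnn : (0 : ℤ) ≤ ∑ P ∈ S, ((k P : ℕ) : ℤ) :=
      Finset.sum_nonneg fun P _ => Int.natCast_nonneg _
    -- goal : -(n * (ΣS + ΣR)) * -(ord j) ≤ ord x + n * (ΣS * ord j)
    have hkey : 0 ≤ Q.ord x + (n : ℤ) * (∑ P ∈ R, ((k P : ℕ) : ℤ)) * (-(Q.ord j)) := by
      by_cases hQx : Q.ord x < 0
      · have hQR : Q ∈ R := by
          rw [hR, Finset.mem_filter]
          exact ⟨(hmemT Q).mpr hQx, hQ⟩
        have h1 := Finset.single_le_sum (f := fun P => ((k P : ℕ) : ℤ))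
          (fun P _ => Int.natCast_nonneg _) hQR
        have h4 := hk Q hQx
        have h6 : (1 : ℤ) ≤ -(Q.ord j) := by omega
        have h7 : (∑ P ∈ R, ((k P : ℕ) : ℤ)) ≤ (n : ℤ) * (∑ P ∈ R, ((k P : ℕ) : ℤ)) := by
          nlinarith
        have h8 : (n : ℤ) * (∑ P ∈ R, ((k P : ℕ) : ℤ)) ≤
            (n : ℤ) * (∑ P ∈ R, ((k P : ℕ) : ℤ)) * (-(Q.ord j)) := by
          have : (0 : ℤ) ≤ (n : ℤ) * (∑ P ∈ R, ((k P : ℕ) : ℤ)) := mul_nonneg (by omega) hRnn
          nlinarith
        linarith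
      · have : (0 : ℤ) ≤ (n : ℤ) * (∑ P ∈ R, ((k P : ℕ) : ℤ)) * (-(Q.ord j)) :=
          mul_nonneg (mul_nonneg (by omega) hRnn) (by omega)
        omega
    nlinarith

end Canon

end Fermat.Agent.G
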