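import Mathlib
import Fermat.Agent.G.Desc.Defs
import Fermat.Agent.S24.PlaceOfValuation
import Fermat.Agent.S24.EmbCount

/-!
# Program G, package G/Desc : the place `q = 0`

`gd_exists_pinf` : an intermediate field `F` of `L((q))` containing an element of `q`-order `-1`
has a place whose order function is the `q`-order.
`gd_order_gdJ` : `j` has a simple pole at `q = 0`.
-/

set_option autoImplicit false
set_option linter.unusedSectionVars false

noncomputable section

namespace Fermat.Agent.G

open ModularCurve AlgebraicCurve HahnSeries IntermediateField Fermat.Agent.S24 WithZero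

section Canon

variable {L : Type*} [Field L] [IsAlgClosed L] [CharZero L]
variable (F : IntermediateField L (LaurentSeries L)) (j : F)

omit [IsAlgClosed L] [CharZero L] in
theorem gdp_order_algebraMap (c : L) :
    ((algebraMap L F c : F) : LaurentSeries L).order = 0 := by
  have h : ((algebraMap L F c : F) : LaurentSeries L) = HahnSeries.single 0 c := by
    rw [← algebraMap_laurentSeries_eq_single]
    rfl
  rw [h]
  rcases eq_or_ne c 0 with rfl | hc
  · simp
  · exact HahnSeries.order_single hc

/-- (P∞) the place `q = 0`. -/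
theorem gd_exists_pinf (hjord : (j : LaurentSeries L).order = -1) :
    ∃ P : Place L F, ∀ x : F, x ≠ 0 → P.ord x = (x : LaurentSeries L).order := by
  set v : Valuation F ℤᵐ⁰ :=
    (Valued.v : Valuation (LaurentSeries L) ℤᵐ⁰).comap (algebraMap F (LaurentSeries L)) with hv
  have hvx : ∀ x : F, x ≠ 0 → v x = exp (-(x : LaurentSeries L).order) := by
    intro x hx
    have hx' : (x : LaurentSeries L) ≠ 0 := fun h => hx (Subtype.ext h)
    exact embCount_valuation_eq_exp_neg_order hx'
  have hj0 : j ≠ 0 := by
    rintro rfl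
    simp at hjord
  have hk : ∀ a : L, v (algebraMap L F a) ≤ 1 := by
    intro a
    rcases eq_or_ne a 0 with rfl | ha
    · simp
    · rw [hvx _ (by simpa using ha), gdp_order_algebraMap, neg_zero, exp_zero]
  have hvj : v j = exp (1 : ℤ) := by rw [hvx j hj0, hjord, neg_neg]
  have hnt : ∃ x : F, x ≠ 0 ∧ v x ≠ 1 := by
    refine ⟨j, hj0, ?_⟩
    rw [hvj, ← exp_zero, ne_eq, exp_inj]
    norm_num
  have hsurj : ∃ x : F, v x = exp (-1 : ℤ) := ⟨j⁻¹, by rw [map_inv₀, hvj, exp_neg]⟩
  refine ⟨placeOfValuation (k := L) v hk hnt, fun x hx => ?_⟩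
  rw [ord_placeOfValuation_of_exists (k := L) v hk hnt hsurj x hx, hvx x hx, log_exp, neg_neg]

end Canon

section Base

variable {K L : Type*} [Field K] [Field L] [Algebra K L] [Algebra ℚ K] [Algebra ℚ L]
  [IsAlgClosed K] [IsAlgClosed L] [CharZero K] [CharZero L]
variable (F₀ : IntermediateField ℚ (LaurentSeries ℚ)) (hj : jq ∈ F₀)

omit [Algebra K L] [Algebra ℚ K] [IsAlgClosed K] [IsAlgClosed L] [CharZero K] [CharZero L] in
/-- (B0) `j` has a simple pole at `q = 0`. -/
theorem gd_order_gdJ : ((gdJ L F₀ hj : laurentBaseChange L F₀) : LaurentSeries L).order = -1 := by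
  rw [coe_gdJ]
  have h1 : (coeffEmb L jq).coeff (-1) ≠ 0 := by
    rw [coeffEmb_coeff, coeff_jq_neg_one, map_one]
    exact one_ne_zero
  have hne : coeffEmb L jq ≠ 0 := fun h => h1 (by rw [h]; rfl)
  apply le_antisymm
  · exact HahnSeries.order_le_of_coeff_ne_zero h1
  · by_contra hlt
    rw [not_le] at hlt
    apply hne
    rw [← HahnSeries.coeff_order_eq_zero, coeffEmb_coeff, coeff_jq_of_lt hlt, map_zero]

end Base

end Fermat.Agent.G
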