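import Mathlib
import Fermat.Agent.G.Desc.Defs
import Fermat.Agent.G.Desc.Pinf
import Fermat.Agent.S24.PlacesCenter
import Fermat.Agent.S24.PlacesPrincipal

/-!
# Program G, package G/Desc, row 504 (E2): the `q`-order of a function with poles bounded by
`n m C_j` is bounded above by `n m [F : L(j)]`

`D := div y + n m C_j ≥ 0` has degree `n m deg C_j = n m [F : L(j)]` and `D(P_∞) ≥ ord_q y`.
-/

set_option autoImplicit false

noncomputable section

namespace Fermat.Agent.G

open ModularCurve AlgebraicCurve HahnSeries IntermediateField Fermat.Agent.S24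

section Canon

variable {L : Type*} [Field L] [IsAlgClosed L] [CharZero L]
variable (F : IntermediateField L (LaurentSeries L)) (j : F)

omit [IsAlgClosed L] [CharZero L] in
theorem gdol_gdPole_nonneg (P : Place L F) : 0 ≤ gdPole F j P := le_max_left _ _

/-- the polar divisor of `j` has degree `[F : L(j)]`. -/
theorem gdol_sum_gdPole (hL : IsSepGen L j) (T : Finset (Place L F))
    (hT : ∀ P : Place L F, P.ord j < 0 → P ∈ T) :
    ∑ P ∈ T, gdPole F j P = (Module.finrank L⟮j⟯ F : ℤ) := by
  classical
  have hinv := hL.inv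
  rw [← hL.finrank_inv, ← hinv.sum_ord]
  symm
  have hsub : hinv.finite_ord_pos.toFinset ⊆ T := by
    intro P hP
    rw [Set.Finite.mem_toFinset, Set.mem_setOf_eq, Place.ord_inv] at hP
    exact hT P (by omega)
  rw [← Finset.sum_subset hsub (f := fun P => gdPole F j P)]
  · refine Finset.sum_congr rfl fun P hP => ?_
    rw [Set.Finite.mem_toFinset, Set.mem_setOf_eq] at hP
    rw [Place.ord_inv] at hP ⊢
    unfold gdPole
    rw [max_eq_right (by omega)]
  · intro P _ hP
    rw [Set.Finite.mem_toFinset, Set.mem_setOf_eq, Place.ord_inv] at hP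
    unfold gdPole
    rw [max_eq_left (by omega)]

/-- (E2) the `q`-order of a function with poles bounded by `n m C_j` is bounded above. -/
theorem gd_order_le_of_bdd (hL : IsSepGen L j) (hjord : (j : LaurentSeries L).order = -1)
    (n m : ℕ) (y : F) (hy : y ≠ 0) (hb : GdBdd F j n m y) :
    (y : LaurentSeries L).order ≤ ((n * m * Module.finrank L⟮j⟯ F : ℕ) : ℤ) := by
  classical
  obtain ⟨Pinf, hPinf⟩ := gd_exists_pinf F j hjord
  haveI := hL.hasPrincipalDivisors
  obtain ⟨D, hD, hdeg⟩ := HasPrincipalDivisors.exists_divisor (K := L) y hy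
  set T : Finset (Place L F) := D.support ∪ hL.inv.finite_ord_pos.toFinset ∪ {Pinf} with hTdef
  have hsum0 : ∑ P ∈ T, P.ord y = 0 := by
    have h1 := pp_degree_eq_sum D T (by
      intro P hP
      rw [hTdef]
      exact Finset.mem_union_left _ (Finset.mem_union_left _ hP))
    rw [hdeg] at h1
    rw [h1]
    refine Finset.sum_congr rfl fun P _ => ?_
    rw [hD P, hL.deg_eq_one P, Nat.cast_one, mul_one]
  have hpole : ∑ P ∈ T, gdPole F j P = (Module.finrank L⟮j⟯ F : ℤ) :=
    gdol_sum_gdPole F j hL T (by
      intro P hP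
      rw [hTdef]
      refine Finset.mem_union_left _ (Finset.mem_union_right _ ?_)
      rw [Set.Finite.mem_toFinset, Set.mem_setOf_eq, Place.ord_inv]
      omega)
  have hnonneg : ∀ P ∈ T, 0 ≤ P.ord y + ((n * m : ℕ) : ℤ) * gdPole F j P := by
    intro P _
    have := hb P
    linarith
  have hmem : Pinf ∈ T := by
    rw [hTdef]
    exact Finset.mem_union_right _ (Finset.mem_singleton_self _)
  have hsingle := Finset.single_le_sum hnonneg hmem
  rw [Finset.sum_add_distrib, hsum0, ← Finset.mul_sum, hpole, zero_add] at hsingle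
  rw [← hPinf y hy]
  have h0 := gdol_gdPole_nonneg F j Pinf
  have h1 : 0 ≤ ((n * m : ℕ) : ℤ) * gdPole F j Pinf := mul_nonneg (Int.natCast_nonneg _) h0
  push_cast at hsingle h1 ⊢
  linarith

end Canon

end Fermat.Agent.G
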