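import Mathlib
import Fermat.Agent.G.Desc.Defs
import Fermat.Agent.G.Desc.Bdd
import Fermat.Agent.G.Desc.OrderLe

/-!
# Program G, package G/Desc, row G-DESC-E : existence of the canonical representative

`gd_canon_exists` : every class `x F^{× n}` contains a canonical element, from
(E1) `gd_exists_bdd` and (E2) `gd_order_le_of_bdd`.
-/

set_option autoImplicit false

noncomputable section

namespace Fermat.Agent.G

open ModularCurve AlgebraicCurve HahnSeries IntermediateField Fermat.Agent.S24

section Canon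

variable {L : Type*} [Field L]
variable (F : IntermediateField L (LaurentSeries L)) (j : F)

/-- `GdRel` is transitive. -/
theorem gdce_rel_trans (n : ℕ) {x y z : F} (hxy : GdRel n x y) (hyz : GdRel n y z) :
    GdRel n x z := by
  obtain ⟨g, hg, rfl⟩ := hxy
  obtain ⟨g', hg', rfl⟩ := hyz
  exact ⟨g * g', mul_ne_zero hg hg', by rw [mul_pow, mul_assoc]⟩

/-- a member of the class of a nonzero element is nonzero. -/
theorem gdce_rel_ne_zero (n : ℕ) {x y : F} (hx : x ≠ 0) (hxy : GdRel n x y) : y ≠ 0 := by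
  obtain ⟨g, hg, rfl⟩ := hxy
  exact mul_ne_zero hx (pow_ne_zero n hg)

/-- multiplying by a nonzero constant does not change the divisor. -/
theorem gdce_bdd_mul_const (n m : ℕ) {y : F} (hy : y ≠ 0) (c : L) (hc : c ≠ 0)
    (hb : GdBdd F j n m y) : GdBdd F j n m (y * algebraMap L F c) := by
  intro P
  have hcF : algebraMap L F c ≠ 0 := by simpa using hc
  rw [P.ord_mul hy hcF, PlaceOrd.ord_algebraMap, add_zero]
  exact hb P

/-- the coercion of a constant. -/
theorem gdce_coe_algebraMap (c : L) :
    ((algebraMap L F c : F) : LaurentSeries L) = HahnSeries.C c := by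
  change algebraMap L (LaurentSeries L) c = _
  rw [algebraMap_laurentSeries_eq_single]
  rfl

/-- multiplying by a nonzero constant does not change the `q`-order. -/
theorem gdce_order_mul_const (y : F) (c : L) (hc : c ≠ 0) :
    ((y * algebraMap L F c : F) : LaurentSeries L).order = (y : LaurentSeries L).order := by
  rcases eq_or_ne y 0 with rfl | hy
  · simp
  have hy0 : (y : LaurentSeries L) ≠ 0 := fun h => hy (Subtype.ext h)
  have hc0 : (HahnSeries.C c : LaurentSeries L) ≠ 0 := C_ne_zero hc
  change ((y : LaurentSeries L) * ((algebraMap L F c : F) : LaurentSeries L)).order = _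
  rw [gdce_coe_algebraMap, order_mul hy0 hc0, order_C, add_zero]

/-- the effect on the leading coefficient of multiplying by a constant. -/
theorem gdce_leadingCoeff_mul_const (y : F) (c : L) :
    ((y * algebraMap L F c : F) : LaurentSeries L).leadingCoeff =
      (y : LaurentSeries L).leadingCoeff * c := by
  change ((y : LaurentSeries L) * ((algebraMap L F c : F) : LaurentSeries L)).leadingCoeff = _
  rw [gdce_coe_algebraMap, leadingCoeff_mul]
  congr 1
  exact leadingCoeff_of_single

end Canon

section Canon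

variable {L : Type*} [Field L] [IsAlgClosed L] [CharZero L]
variable (F : IntermediateField L (LaurentSeries L)) (j : F)

/-- (E) existence of the canonical representative (from E1, E2; normalise the leading coefficient
with an `n`-th root in `L`). -/
theorem gd_canon_exists (hL : IsSepGen L j) (hjord : (j : LaurentSeries L).order = -1)
    (n : ℕ) (hn : 0 < n) (x : F) (hx : x ≠ 0) :
    ∃ y : F, GdRel n x y ∧ GdCanon F j n y := by
  classical
  -- the minimal `m`
  have hex : ∃ m : ℕ, ∃ y : F, GdRel n x y ∧ GdBdd F j n m y := gd_exists_bdd F j hL n hn x hx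
  set m0 := Nat.find hex with hm0
  have hm0spec : ∃ y : F, GdRel n x y ∧ GdBdd F j n m0 y := Nat.find_spec hex
  have hm0min : ∀ (m' : ℕ) (y : F), GdRel n x y → GdBdd F j n m' y → m0 ≤ m' :=
    fun m' y h1 h2 => Nat.find_min' hex ⟨y, h1, h2⟩
  -- the maximal `q`-order
  obtain ⟨ub, ⟨y1, hrel1, hb1, hord1⟩, hub⟩ := Int.exists_greatest_of_bdd
    (P := fun k : ℤ => ∃ y : F, GdRel n x y ∧ GdBdd F j n m0 y ∧ (y : LaurentSeries L).order = k)
    ⟨((n * m0 * Module.finrank L⟮j⟯ F : ℕ) : ℤ), by
      rintro z ⟨y, hrel, hb, rfl⟩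
      exact gd_order_le_of_bdd F j hL hjord n m0 y (gdce_rel_ne_zero F n hx hrel) hb⟩
    (by
      obtain ⟨y, hrel, hb⟩ := hm0spec
      exact ⟨_, y, hrel, hb, rfl⟩)
  have hy1 : y1 ≠ 0 := gdce_rel_ne_zero F n hx hrel1
  have hy1L : (y1 : LaurentSeries L) ≠ 0 := fun h => hy1 (Subtype.ext h)
  -- normalise the leading coefficient
  set a : L := (y1 : LaurentSeries L).leadingCoeff with ha
  have ha0 : a ≠ 0 := leadingCoeff_ne_zero.2 hy1L
  obtain ⟨b, hb⟩ := IsAlgClosed.exists_pow_nat_eq a⁻¹ hn
  have hb0 : b ≠ 0 := by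
    rintro rfl
    rw [zero_pow hn.ne'] at hb
    exact inv_ne_zero ha0 hb.symm
  have hbn0 : b ^ n ≠ 0 := pow_ne_zero n hb0
  have hbF : algebraMap L F b ≠ 0 := by simpa using hb0
  set y : F := y1 * algebraMap L F (b ^ n) with hy
  have hrely1 : GdRel n y1 y := ⟨algebraMap L F b, hbF, by rw [hy, map_pow]⟩
  have hrel : GdRel n x y := gdce_rel_trans F n hrel1 hrely1
  have hy0 : y ≠ 0 := gdce_rel_ne_zero F n hx hrel
  have hbdd : GdBdd F j n m0 y := gdce_bdd_mul_const F j n m0 hy1 (b ^ n) hbn0 hb1
  have hordy : (y : LaurentSeries L).order = ub := by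
    rw [hy, gdce_order_mul_const F y1 (b ^ n) hbn0, hord1]
  have hrelxy : GdRel n y x := by
    obtain ⟨g, hg, hg'⟩ := hrel
    refine ⟨g⁻¹, inv_ne_zero hg, ?_⟩
    rw [hg', mul_assoc, ← mul_pow, mul_inv_cancel₀ hg, one_pow, mul_one]
  refine ⟨y, hrel, ⟨hy0, ?_, m0, hbdd, ?_, ?_⟩⟩
  · rw [hy, gdce_leadingCoeff_mul_const, ← ha, hb, mul_inv_cancel₀ ha0]
  · intro m' y' hyy' hb'
    exact hm0min m' y' (gdce_rel_trans F n hrel hyy') hb'
  · intro y' hyy' hb'
    rw [hordy]
    exact hub _ ⟨y', gdce_rel_trans F n hrel hyy', hb', rfl⟩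

end Canon

end Fermat.Agent.G
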