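import Mathlib
import Fermat.Agent.G.Desc.Defs

/-!
# Program G, package G/Desc, row G-DESC-U : uniqueness of the canonical representative

`gd_canon_unique` : two canonical elements of the same class modulo `n`-th powers are equal.
-/

set_option autoImplicit false

noncomputable section

namespace Fermat.Agent.G

open ModularCurve AlgebraicCurve HahnSeries IntermediateField Fermat.Agent.S24

section Canon

variable {L : Type*} [Field L]
variable (F : IntermediateField L (LaurentSeries L)) (j : F)

/-- `GdRel` is symmetric. -/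
theorem gdcu_rel_symm (n : ℕ) {x y : F} (hxy : GdRel n x y) : GdRel n y x := by
  obtain ⟨g, hg, rfl⟩ := hxy
  refine ⟨g⁻¹, inv_ne_zero hg, ?_⟩
  rw [mul_assoc, ← mul_pow, mul_inv_cancel₀ hg, one_pow, mul_one]

/-- a nonzero series of nonnegative order whose constant coefficient vanishes has positive
order. -/
theorem gdcu_order_pos {h : LaurentSeries L} (h0 : h ≠ 0) (hneg : ∀ k : ℤ, k < 0 → h.coeff k = 0)
    (hzero : h.coeff 0 = 0) : 0 < h.order := by
  by_contra hle
  push Not at hle
  have hc : h.coeff h.order ≠ 0 := fun hc => h0 (coeff_order_eq_zero.1 hc)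
  rcases lt_or_eq_of_le hle with hlt | heq
  · exact hc (hneg _ hlt)
  · rw [heq] at hc
    exact hc hzero

/-- the leading coefficient is multiplicative on powers. -/
theorem gdcu_leadingCoeff_pow (g : LaurentSeries L) (n : ℕ) :
    (g ^ n).leadingCoeff = g.leadingCoeff ^ n := by
  induction n with
  | zero => simp
  | succ k ih => rw [pow_succ, leadingCoeff_mul, ih, pow_succ]

/-- poles of `1 - c g` are bounded by the poles of `g`. -/
theorem gdcu_ord_one_sub (P : Place L F) (c : L) (g : F) (h0 : 1 - algebraMap L F c * g ≠ 0) :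
    min 0 (P.ord g) ≤ P.ord (1 - algebraMap L F c * g) := by
  rcases eq_or_ne c 0 with rfl | hc
  · simp
  rcases eq_or_ne g 0 with rfl | hg
  · simp
  have hcF : algebraMap L F c ≠ 0 := by simpa using hc
  have h1 := PlaceOrd.min_le_ord_add P (f := (1 : F)) (g := -(algebraMap L F c * g))
    (by rwa [← sub_eq_add_neg])
  rw [PlaceOrd.ord_neg, P.ord_mul hcF hg, PlaceOrd.ord_algebraMap, zero_add, Place.ord_one,
    ← sub_eq_add_neg] at h1
  exact h1

end Canon

section Canon

variable {L : Type*} [Field L] [IsAlgClosed L] [CharZero L]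
variable (F : IntermediateField L (LaurentSeries L)) (j : F)

omit [IsAlgClosed L] [CharZero L] in
/-- (U) uniqueness: if `y = x g ^ n` are both canonical then `ord_q g = 0`, and for
`c := (leading coefficient of g)⁻¹` the function `x (1 - c g) ^ n` is in the class, has poles
bounded by `n m C_j` (`ord_P (1 - c g) ≥ min 0 (ord_P g)`) and larger `q`-order unless `g = c⁻¹`. -/
theorem gd_canon_unique (n : ℕ) (hn : 0 < n) {x y : F} (hx : GdCanon F j n x)
    (hy : GdCanon F j n y) (hxy : GdRel n x y) : x = y := by
  have hyx : GdRel n y x := gdcu_rel_symm F n hxy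
  obtain ⟨mx, hbx, hminx, hmaxx⟩ := hx.exists_bdd
  obtain ⟨my, hby, hminy, hmaxy⟩ := hy.exists_bdd
  have hm : mx = my := le_antisymm (hminx my y hxy hby) (hminy mx x hyx hbx)
  subst hm
  have hord : (y : LaurentSeries L).order = (x : LaurentSeries L).order :=
    le_antisymm (hmaxx y hxy hby) (hmaxy x hyx hbx)
  obtain ⟨g, hg, hyg⟩ := hxy
  have hx0 : (x : LaurentSeries L) ≠ 0 := fun h => hx.ne_zero (Subtype.ext h)
  have hg0 : (g : LaurentSeries L) ≠ 0 := fun h => hg (Subtype.ext h)
  have hygL : (y : LaurentSeries L) = (x : LaurentSeries L) * (g : LaurentSeries L) ^ n := by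
    rw [hyg]; rfl
  -- `ord_q g = 0`
  have hgord : (g : LaurentSeries L).order = 0 := by
    have h1 : (y : LaurentSeries L).order =
        (x : LaurentSeries L).order + n • (g : LaurentSeries L).order := by
      rw [hygL, order_mul hx0 (pow_ne_zero n hg0), order_pow]
    rw [hord] at h1
    have h2 : n • (g : LaurentSeries L).order = 0 := by linarith
    rcases smul_eq_zero.1 h2 with h | h
    · omega
    · exact h
  -- `a ^ n = 1`
  set a : L := (g : LaurentSeries L).leadingCoeff with ha
  have ha0 : a ≠ 0 := leadingCoeff_ne_zero.2 hg0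
  have han : a ^ n = 1 := by
    have h1 : (y : LaurentSeries L).leadingCoeff =
        (x : LaurentSeries L).leadingCoeff * a ^ n := by
      rw [hygL, leadingCoeff_mul, gdcu_leadingCoeff_pow]
    rw [hy.lead, hx.lead, one_mul] at h1
    exact h1.symm
  -- `h := 1 - a⁻¹ g`
  set h : F := 1 - algebraMap L F a⁻¹ * g with hh
  have hzero : h = 0 := by
    by_contra h0
    have hhL0 : (h : LaurentSeries L) ≠ 0 := fun e => h0 (Subtype.ext e)
    have hhL : (h : LaurentSeries L) =
        1 - algebraMap L (LaurentSeries L) a⁻¹ * (g : LaurentSeries L) := rfl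
    have hcoeff : ∀ k : ℤ, (h : LaurentSeries L).coeff k =
        (1 : LaurentSeries L).coeff k - a⁻¹ * (g : LaurentSeries L).coeff k := by
      intro k
      rw [hhL, coeff_sub, algebraMap_laurentSeries_eq_single]
      congr 1
      rw [← C_apply, C_mul_eq_smul, coeff_smul, smul_eq_mul]
    have hpos : 0 < (h : LaurentSeries L).order := by
      refine gdcu_order_pos hhL0 (fun k hk => ?_) ?_
      · rw [hcoeff, coeff_one, if_neg hk.ne,
          coeff_eq_zero_of_lt_order (by rw [hgord]; exact hk), mul_zero, sub_zero]
      · rw [hcoeff, coeff_one, if_pos rfl]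
        have : (g : LaurentSeries L).coeff 0 = a := by
          rw [ha, leadingCoeff_eq, hgord]
        rw [this, inv_mul_cancel₀ ha0, sub_self]
    -- the competitor `z := x h ^ n`
    have hrel : GdRel n x (x * h ^ n) := ⟨h, h0, rfl⟩
    have hbz : GdBdd F j n mx (x * h ^ n) := by
      intro P
      have h1 : P.ord (x * h ^ n) = P.ord x + (n : ℤ) * P.ord h := by
        rw [P.ord_mul hx.ne_zero (pow_ne_zero n h0), ← zpow_natCast, P.ord_zpow]
      have h2 : P.ord y = P.ord x + (n : ℤ) * P.ord g := by
        rw [hyg, P.ord_mul hx.ne_zero (pow_ne_zero n hg), ← zpow_natCast, P.ord_zpow]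
      have h3 := gdcu_ord_one_sub F P a⁻¹ g h0
      have h4 := hbx P
      have h5 := hby P
      rw [h2] at h5
      rw [h1]
      have hn' : (0 : ℤ) ≤ (n : ℤ) := Int.natCast_nonneg n
      rcases le_total 0 (P.ord g) with hge | hle
      · rw [min_eq_left hge] at h3
        nlinarith
      · rw [min_eq_right hle] at h3
        nlinarith
    have h6 := hmaxx _ hrel hbz
    have h7 : ((x * h ^ n : F) : LaurentSeries L).order =
        (x : LaurentSeries L).order + n • (h : LaurentSeries L).order := by
      change ((x : LaurentSeries L) * (h : LaurentSeries L) ^ n).order = _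
      rw [order_mul hx0 (pow_ne_zero n hhL0), order_pow]
    rw [h7] at h6
    have h8 : 0 < n • (h : LaurentSeries L).order := by
      rw [nsmul_eq_mul]
      have : (0 : ℤ) < (n : ℤ) := by exact_mod_cast hn
      positivity
    linarith
  -- `g = a`
  have hga : g = algebraMap L F a := by
    have h1 : algebraMap L F a⁻¹ * g = 1 := by
      rw [hh, sub_eq_zero] at hzero
      exact hzero.symm
    have h2 : algebraMap L F a * (algebraMap L F a⁻¹ * g) = algebraMap L F a := by
      rw [h1, mul_one]
    rw [← mul_assoc, ← map_mul, mul_inv_cancel₀ ha0, map_one, one_mul] at h2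
    exact h2
  rw [hyg, hga, ← map_pow, han, map_one, mul_one]

end Canon

end Fermat.Agent.G
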