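import Mathlib
import Fermat.Agent.G.Desc.Defs

/-!
# Program G, package G/Desc, row 507 (G-DESC-G): equivariance

* `gd_canon_smul` : the canonical representative is equivariant under semilinear automorphisms fixing
  `j`, preserving the `q`-order and acting on leading coefficients through the base automorphism.
* `gdAct` : the coefficientwise action of `Aut(L/K)` on `F₀ ⊗ L`; it fixes `ι(F₀ ⊗ K)`
  (`gdAct_gdIota`), preserves the `q`-order (`gdAct_order`), acts on leading coefficients through the
  base automorphism (`gdAct_leadingCoeff`) and preserves `W_n` (`gdAct_div`).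

Statements VERBATIM from `G/Desc/Spec.lean` (origin/helper13 4a3372e). Helper lemmas: prefix `gde_`.
-/

set_option autoImplicit false

noncomputable section

namespace Fermat.Agent.G

open ModularCurve AlgebraicCurve HahnSeries IntermediateField Fermat.Agent.S24

/-! ### coefficientwise maps, order and leading coefficient -/

section CoeffMap

variable {R S : Type*} [CommRing R] [CommRing S]

theorem gde_coeffMap_eq_zero_iff (f : R →+* S) (hf : Function.Injective f) (x : LaurentSeries R) :
    coeffMap f x = 0 ↔ x = 0 := by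
  constructor
  · intro h
    ext k
    have h1 := congrArg (fun y : LaurentSeries S => y.coeff k) h
    simp only [coeffMap_coeff, HahnSeries.coeff_zero] at h1
    rw [HahnSeries.coeff_zero]
    exact hf (h1.trans (map_zero f).symm)
  · rintro rfl
    exact map_zero _

theorem gde_coeffMap_order (f : R →+* S) (hf : Function.Injective f) (x : LaurentSeries R) :
    (coeffMap f x).order = x.order := by
  rcases eq_or_ne x 0 with rfl | hx
  · rw [map_zero, HahnSeries.order_zero, HahnSeries.order_zero]
  have hx' : coeffMap f x ≠ 0 := fun h => hx ((gde_coeffMap_eq_zero_iff f hf x).1 h)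
  apply le_antisymm
  · apply HahnSeries.order_le_of_coeff_ne_zero
    rw [coeffMap_coeff]
    intro h
    have h1 : x.coeff x.order = 0 := hf (h.trans (map_zero f).symm)
    exact hx (HahnSeries.coeff_order_eq_zero.1 h1)
  · apply HahnSeries.order_le_of_coeff_ne_zero
    intro h
    have h1 : (coeffMap f x).coeff (coeffMap f x).order = 0 := by
      rw [coeffMap_coeff, h, map_zero]
    exact hx' (HahnSeries.coeff_order_eq_zero.1 h1)

theorem gde_coeffMap_leadingCoeff (f : R →+* S) (hf : Function.Injective f)
    (x : LaurentSeries R) : (coeffMap f x).leadingCoeff = f x.leadingCoeff := by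
  rw [HahnSeries.leadingCoeff_eq, HahnSeries.leadingCoeff_eq, gde_coeffMap_order f hf x,
    coeffMap_coeff]

end CoeffMap

/-! ### semilinear automorphisms and the bounds `GdBdd` -/

section Semilinear

variable {L : Type*} [Field L] (F : IntermediateField L (LaurentSeries L)) (j : F)

theorem gde_ord_smul' (g : SemilinearAut L F) (P : Place L F) (y : F) :
    P.ord (g • y) = (g⁻¹ • P).ord y := by
  have h := SemilinearAut.ord_smul g (g⁻¹ • P) y
  rw [smul_inv_smul] at h
  exact h

theorem gde_gdPole_smul (g : SemilinearAut L F) (hgj : g • j = j) (P : Place L F) :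
    gdPole F j (g⁻¹ • P) = gdPole F j P := by
  unfold gdPole
  rw [← gde_ord_smul' F g P j, hgj]

theorem gde_bdd_smul (g : SemilinearAut L F) (hgj : g • j = j) (n m : ℕ) (y : F)
    (h : GdBdd F j n m y) : GdBdd F j n m (g • y) := by
  intro P
  rw [gde_ord_smul', ← gde_gdPole_smul F j g hgj P]
  exact h (g⁻¹ • P)

theorem gde_rel_smul (g : SemilinearAut L F) (n : ℕ) {x y : F} (h : GdRel n x y) :
    GdRel n (g • x) (g • y) := by
  obtain ⟨u, hu, rfl⟩ := h
  refine ⟨g • u, ?_, ?_⟩
  · intro h0
    apply hu
    have := congrArg (fun z => g⁻¹ • z) h0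
    simpa using this
  · rw [smul_mul', smul_pow']

theorem gde_inv_smul_j (g : SemilinearAut L F) (hgj : g • j = j) : g⁻¹ • j = j := by
  conv_lhs => rw [← hgj]
  rw [inv_smul_smul]

end Semilinear

section Canon

variable {L : Type*} [Field L] [IsAlgClosed L] [CharZero L]
variable (F : IntermediateField L (LaurentSeries L)) (j : F)

omit [IsAlgClosed L] [CharZero L] in
/-- (G) equivariance under a semilinear automorphism fixing `j`, preserving the `q`-order and
acting on leading coefficients through its base automorphism. -/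
theorem gd_canon_smul (n : ℕ) (g : SemilinearAut L F) (hgj : g • j = j)
    (hgord : ∀ x : F, ((g • x : F) : LaurentSeries L).order = (x : LaurentSeries L).order)
    (hglead : ∀ x : F, ((g • x : F) : LaurentSeries L).leadingCoeff =
      SemilinearAut.baseAut g ((x : LaurentSeries L).leadingCoeff))
    {x : F} (hx : GdCanon F j n x) : GdCanon F j n (g • x) := by
  obtain ⟨hne, hlead, m, hbdd, hmin, hmax⟩ := hx
  have hginv : g⁻¹ • j = j := gde_inv_smul_j F j g hgj
  have hrel : ∀ y : F, GdRel n (g • x) y → GdRel n x (g⁻¹ • y) := by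
    intro y hy
    have := gde_rel_smul F g⁻¹ n hy
    rwa [inv_smul_smul] at this
  refine ⟨?_, ?_, m, gde_bdd_smul F j g hgj n m x hbdd, ?_, ?_⟩
  · intro h0
    apply hne
    have := congrArg (fun z => g⁻¹ • z) h0
    simpa using this
  · rw [hglead, hlead, map_one]
  · intro m' y hy hb
    exact hmin m' (g⁻¹ • y) (hrel y hy) (gde_bdd_smul F j g⁻¹ hginv n m' y hb)
  · intro y hy hb
    have h1 := hmax (g⁻¹ • y) (hrel y hy) (gde_bdd_smul F j g⁻¹ hginv n m y hb)
    have h2 := hgord (g⁻¹ • y)
    rw [smul_inv_smul] at h2
    rw [hgord x, h2]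
    exact h1

end Canon

/-! ## Block G : the Galois action of `Aut(L/K)` on `F₀ ⊗ L` -/

section Galois

variable {K L : Type*} [Field K] [Field L] [Algebra K L] [Algebra ℚ K] [Algebra ℚ L]
  [IsScalarTower ℚ K L]
variable (F₀ : IntermediateField ℚ (LaurentSeries ℚ)) (hj : jq ∈ F₀)

/- `gdAct` and `coe_gdAct_smul` live in `Defs.lean` (integration: helper13). -/

/-- (G1) the action fixes the image of `F₀ ⊗ K`. -/
theorem gdAct_gdIota (σ : L ≃ₐ[K] L) (x : laurentBaseChange K F₀) :
    gdAct F₀ σ • gdIota K L F₀ x = gdIota K L F₀ x := by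
  apply Subtype.ext
  rw [coe_gdAct_smul, coe_gdIota, coeffMap_coeffMap]
  apply coeffMap_congr
  ext c
  exact σ.commutes c

/-- (G2) the action preserves the `q`-order. -/
theorem gdAct_order (σ : L ≃ₐ[K] L) (x : laurentBaseChange L F₀) :
    ((gdAct F₀ σ • x : laurentBaseChange L F₀) : LaurentSeries L).order =
      (x : LaurentSeries L).order := by
  rw [coe_gdAct_smul]
  exact gde_coeffMap_order _ σ.injective _

/-- (G3) the action on leading coefficients. -/
theorem gdAct_leadingCoeff (σ : L ≃ₐ[K] L) (x : laurentBaseChange L F₀) :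
    ((gdAct F₀ σ • x : laurentBaseChange L F₀) : LaurentSeries L).leadingCoeff =
      SemilinearAut.baseAut (gdAct F₀ σ) ((x : LaurentSeries L).leadingCoeff) := by
  rw [coe_gdAct_smul, gde_coeffMap_leadingCoeff _ σ.injective]
  rfl

/-- (G4) the action preserves `W_n` and the classes. -/
theorem gdAct_div (σ : L ≃ₐ[K] L) (n : ℕ) {x : laurentBaseChange L F₀}
    (hx : GdDiv L (laurentBaseChange L F₀) n x) :
    GdDiv L (laurentBaseChange L F₀) n (gdAct F₀ σ • x) := by
  intro P
  rw [gde_ord_smul']
  exact hx _

end Galois

end Fermat.Agent.G
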