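import Mathlib
import Fermat.Prelude.Def_AlgebraicCurve_DivisorClassGroup

/-!
# Program G, package G/Desc : the abstract Gauss extension lemma

`A` an `L`-subalgebra of a field `F` with fraction field `F`, `ϖ ∈ A` with `A / ϖ A = L` and
`⋂ ϖ ^ n A = 0`. Then `A_(ϖ) = {a / s : s ∈ A not divisible by ϖ}` is a discrete valuation ring,
i.e. a place `GdxData.place` of `F / L`, with `ord ϖ = 1` (`GdxData.ord_unif`) and `ord s = 0` for
`s ∈ A` not divisible by `ϖ` (`GdxData.ord_of_u`).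
-/

set_option autoImplicit false

noncomputable section

namespace Fermat.Agent.G

open AlgebraicCurve

section Abstract

variable {L F : Type*} [Field L] [Field F] [Algebra L F]

/-- hypotheses of the abstract "Gauss extension" lemma: `A` is an `L`-subalgebra of the field `F`
with fraction field `F`, `ϖ ∈ A` is such that `A / ϖ A = L` and `⋂ ϖ ^ n A = 0`. -/
structure GdxData (A : Subalgebra L F) (ϖ : F) : Prop where
  mem : ϖ ∈ A
  ne_zero : ϖ ≠ 0
  gen : ∀ y : F, ∃ a ∈ A, ∃ b ∈ A, b ≠ 0 ∧ y = a / b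
  decomp : ∀ a ∈ A, ∃ α : L, ∃ a' ∈ A, a = algebraMap L F α + ϖ * a'
  sep : ∀ a ∈ A, a ≠ 0 → ∃ n : ℕ, ∀ b ∈ A, a ≠ ϖ ^ (n + 1) * b

/-- `a ∈ A` is not divisible by `ϖ`. -/
def GdxU (A : Subalgebra L F) (ϖ : F) (a : F) : Prop :=
  a ∈ A ∧ ∀ b ∈ A, a ≠ ϖ * b

variable {A : Subalgebra L F} {ϖ : F}

theorem GdxData.not_unit (h : GdxData A ϖ) : ∀ b ∈ A, ϖ * b ≠ 1 := by
  intro b hb h1
  obtain ⟨n, hn⟩ := h.sep 1 A.one_mem one_ne_zero
  apply hn (b ^ (n + 1)) (pow_mem hb _)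
  rw [← mul_pow, h1, one_pow]

theorem GdxData.u_iff (h : GdxData A ϖ) {a a' : F} {α : L} (ha' : a' ∈ A)
    (haa : a = algebraMap L F α + ϖ * a') : GdxU A ϖ a ↔ α ≠ 0 := by
  have haA : a ∈ A := by
    rw [haa]
    exact add_mem (A.algebraMap_mem _) (mul_mem h.mem ha')
  constructor
  · intro hu hα
    apply hu.2 a' ha'
    rw [haa, hα, map_zero, zero_add]
  · intro hα
    refine ⟨haA, fun b hb hab => ?_⟩
    have hα' : algebraMap L F α ≠ 0 := by simpa using hα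
    apply h.not_unit ((b - a') * algebraMap L F α⁻¹)
      (mul_mem (sub_mem hb ha') (A.algebraMap_mem _))
    have h1 : algebraMap L F α = ϖ * (b - a') := by
      rw [mul_sub, ← hab, haa]; ring
    rw [← mul_assoc, ← h1, ← map_mul, mul_inv_cancel₀ hα, map_one]

theorem GdxData.u_one (h : GdxData A ϖ) : GdxU A ϖ 1 :=
  (h.u_iff (a' := 0) (α := 1) A.zero_mem (by simp)).2 one_ne_zero

theorem GdxData.u_algebraMap (h : GdxData A ϖ) {c : L} (hc : c ≠ 0) :
    GdxU A ϖ (algebraMap L F c) :=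
  (h.u_iff (a' := 0) (α := c) A.zero_mem (by simp)).2 hc

theorem GdxU.ne_zero {a : F} (h : GdxU A ϖ a) : a ≠ 0 := by
  intro h0
  apply h.2 0 A.zero_mem
  rw [h0, mul_zero]

theorem GdxData.u_mul (h : GdxData A ϖ) {a b : F} (ha : GdxU A ϖ a) (hb : GdxU A ϖ b) :
    GdxU A ϖ (a * b) := by
  obtain ⟨α, a', ha', haa⟩ := h.decomp a ha.1
  obtain ⟨β, b', hb', hbb⟩ := h.decomp b hb.1
  have hα := (h.u_iff ha' haa).1 ha
  have hβ := (h.u_iff hb' hbb).1 hb
  refine (h.u_iff (a' := algebraMap L F α * b' + algebraMap L F β * a' + ϖ * a' * b')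
    (α := α * β) ?_ ?_).2 (mul_ne_zero hα hβ)
  · exact add_mem (add_mem (mul_mem (A.algebraMap_mem _) hb') (mul_mem (A.algebraMap_mem _) ha'))
      (mul_mem (mul_mem h.mem ha') hb')
  · rw [haa, hbb, map_mul]; ring

/-- every nonzero element of `A` is a power of `ϖ` times an element not divisible by `ϖ`. -/
theorem GdxData.factor (h : GdxData A ϖ) {a : F} (haA : a ∈ A) (ha : a ≠ 0) :
    ∃ (n : ℕ) (u : F), GdxU A ϖ u ∧ a = ϖ ^ n * u := by
  classical
  have hex : ∃ n : ℕ, ¬ ∃ b ∈ A, a = ϖ ^ (n + 1) * b := by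
    obtain ⟨n, hn⟩ := h.sep a haA ha
    exact ⟨n, fun ⟨b, hb, hab⟩ => hn b hb hab⟩
  have hmin : ∀ {m : ℕ}, m < Nat.find hex → ¬ ¬ ∃ b ∈ A, a = ϖ ^ (m + 1) * b :=
    fun {m} hm => Nat.find_min hex hm
  have hspec := Nat.find_spec hex
  set n := Nat.find hex with hn
  have hdiv : ∃ b ∈ A, a = ϖ ^ n * b := by
    rcases Nat.eq_zero_or_pos n with h0 | hpos
    · exact ⟨a, haA, by rw [h0, pow_zero, one_mul]⟩
    · obtain ⟨m, hm⟩ : ∃ m, n = m + 1 := ⟨n - 1, by omega⟩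
      have := hmin (m := m) (by omega)
      rw [not_not] at this
      rw [hm]
      exact this
  obtain ⟨b, hb, hab⟩ := hdiv
  refine ⟨n, b, ⟨hb, fun c hc hbc => hspec ⟨c, hc, ?_⟩⟩, hab⟩
  rw [hab, hbc, pow_succ]; ring

/-- the valuation ring `A_(ϖ)`. -/
def GdxData.valSub (h : GdxData A ϖ) : ValuationSubring F where
  carrier := {y | ∃ a ∈ A, ∃ s, GdxU A ϖ s ∧ y = a / s}
  mul_mem' := by
    rintro _ _ ⟨a, ha, s, hs, rfl⟩ ⟨b, hb, t, ht, rfl⟩
    exact ⟨a * b, mul_mem ha hb, s * t, h.u_mul hs ht, by rw [div_mul_div_comm]⟩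
  one_mem' := ⟨1, A.one_mem, 1, h.u_one, by rw [div_one]⟩
  add_mem' := by
    rintro _ _ ⟨a, ha, s, hs, rfl⟩ ⟨b, hb, t, ht, rfl⟩
    refine ⟨a * t + s * b, add_mem (mul_mem ha ht.1) (mul_mem hs.1 hb), s * t, h.u_mul hs ht, ?_⟩
    rw [div_add_div _ _ hs.ne_zero ht.ne_zero]
  zero_mem' := ⟨0, A.zero_mem, 1, h.u_one, by rw [div_one]⟩
  neg_mem' := by
    rintro _ ⟨a, ha, s, hs, rfl⟩
    exact ⟨-a, neg_mem ha, s, hs, by rw [neg_div]⟩
  mem_or_inv_mem' := by
    intro y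
    obtain ⟨a, ha, b, hb, hb0, rfl⟩ := h.gen y
    rcases eq_or_ne a 0 with rfl | ha0
    · left
      exact ⟨0, A.zero_mem, 1, h.u_one, by rw [zero_div, div_one]⟩
    obtain ⟨n, u, hu, rfl⟩ := h.factor ha ha0
    obtain ⟨m, w, hw, rfl⟩ := h.factor hb hb0
    have hϖ := h.ne_zero
    rcases le_total m n with hmn | hmn
    · left
      refine ⟨ϖ ^ (n - m) * u, mul_mem (pow_mem h.mem _) hu.1, w, hw, ?_⟩
      obtain ⟨k, rfl⟩ := Nat.exists_eq_add_of_le hmn
      rw [Nat.add_sub_cancel_left, pow_add]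
      field_simp
    · right
      refine ⟨ϖ ^ (m - n) * w, mul_mem (pow_mem h.mem _) hw.1, u, hu, ?_⟩
      obtain ⟨k, rfl⟩ := Nat.exists_eq_add_of_le hmn
      rw [Nat.add_sub_cancel_left, pow_add, inv_div]
      field_simp

theorem GdxData.mem_valSub (h : GdxData A ϖ) {y : F} :
    y ∈ h.valSub ↔ ∃ a ∈ A, ∃ s, GdxU A ϖ s ∧ y = a / s := Iff.rfl

theorem GdxData.mem_valSub_of_mem (h : GdxData A ϖ) {a : F} (ha : a ∈ A) : a ∈ h.valSub :=
  ⟨a, ha, 1, h.u_one, by rw [div_one]⟩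

theorem GdxData.inv_mem_valSub (h : GdxData A ϖ) {s : F} (hs : GdxU A ϖ s) : s⁻¹ ∈ h.valSub :=
  ⟨1, A.one_mem, s, hs, by rw [one_div]⟩

theorem GdxData.inv_not_mem_valSub (h : GdxData A ϖ) : ϖ⁻¹ ∉ h.valSub := by
  rintro ⟨a, ha, s, hs, has⟩
  apply hs.2 a ha
  have hϖ := h.ne_zero
  have hs0 := hs.ne_zero
  field_simp at has
  rw [has]

/-- the element `ϖ` of the valuation ring. -/
def GdxData.unif (h : GdxData A ϖ) : h.valSub := ⟨ϖ, h.mem_valSub_of_mem h.mem⟩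

theorem GdxData.isUnit_of_u (h : GdxData A ϖ) {s : F} (hs : GdxU A ϖ s) :
    IsUnit (⟨s, h.mem_valSub_of_mem hs.1⟩ : h.valSub) := by
  refine IsUnit.of_mul_eq_one ⟨s⁻¹, h.inv_mem_valSub hs⟩ ?_
  apply Subtype.ext
  show s * s⁻¹ = 1
  exact mul_inv_cancel₀ hs.ne_zero

theorem GdxData.not_isUnit_unif (h : GdxData A ϖ) : ¬ IsUnit h.unif := by
  intro hu
  obtain ⟨b, hb⟩ := hu.exists_right_inv
  apply h.inv_not_mem_valSub
  have h1 : ϖ * (b : F) = 1 := by
    have := congrArg Subtype.val hb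
    simpa [GdxData.unif] using this
  rw [inv_eq_of_mul_eq_one_right h1]
  exact b.2

theorem GdxData.associated_pow (h : GdxData A ϖ) {x : h.valSub} (hx : x ≠ 0) :
    ∃ n : ℕ, Associated (h.unif ^ n) x := by
  obtain ⟨a, ha, s, hs, hxas⟩ := x.2
  have ha0 : a ≠ 0 := by
    rintro rfl
    apply hx
    apply Subtype.ext
    rw [hxas, zero_div]
    rfl
  obtain ⟨n, u, hu, rfl⟩ := h.factor ha ha0
  refine ⟨n, ?_⟩
  have hw : IsUnit ((⟨u, h.mem_valSub_of_mem hu.1⟩ : h.valSub) *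
      ⟨s⁻¹, h.inv_mem_valSub hs⟩) := by
    refine IsUnit.mul (h.isUnit_of_u hu) ?_
    refine IsUnit.of_mul_eq_one ⟨s, h.mem_valSub_of_mem hs.1⟩ ?_
    apply Subtype.ext
    show s⁻¹ * s = 1
    exact inv_mul_cancel₀ hs.ne_zero
  refine ⟨hw.unit, ?_⟩
  apply Subtype.ext
  rw [IsUnit.unit_spec, hxas]
  show ϖ ^ n * (u * s⁻¹) = _
  rw [div_eq_mul_inv, mul_assoc]

theorem GdxData.irreducible_unif (h : GdxData A ϖ) : Irreducible h.unif := by
  have hϖ0 : h.unif ≠ 0 := by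
    intro h0
    exact h.ne_zero (congrArg Subtype.val h0)
  rw [irreducible_iff]
  refine ⟨h.not_isUnit_unif, fun a b hab => ?_⟩
  have ha0 : a ≠ 0 := by
    rintro rfl
    rw [zero_mul] at hab
    exact hϖ0 hab
  have hb0 : b ≠ 0 := by
    rintro rfl
    rw [mul_zero] at hab
    exact hϖ0 hab
  obtain ⟨n, w, hw⟩ := h.associated_pow ha0
  obtain ⟨m, w', hw'⟩ := h.associated_pow hb0
  rcases Nat.eq_zero_or_pos n with rfl | hn
  · left
    rw [← hw, pow_zero, one_mul]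
    exact w.isUnit
  rcases Nat.eq_zero_or_pos m with rfl | hm
  · right
    rw [← hw', pow_zero, one_mul]
    exact w'.isUnit
  exfalso
  apply h.not_isUnit_unif
  obtain ⟨k, hk⟩ : ∃ k, n + m = k + 2 := ⟨n + m - 2, by omega⟩
  have h1 : h.unif * 1 = h.unif * (h.unif ^ (k + 1) * (w * w')) := by
    rw [mul_one]
    conv_lhs => rw [hab, ← hw, ← hw']
    rw [← mul_assoc h.unif, ← pow_succ', show k + 1 + 1 = n + m by omega, pow_add]
    ring
  have h2 := mul_left_cancel₀ hϖ0 h1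
  refine IsUnit.of_mul_eq_one (h.unif ^ k * (w * w')) ?_
  rw [h2, pow_succ']
  ring

/-- **abstract Gauss extension**: the place of `F / L` with valuation ring `A_(ϖ)`. -/
def GdxData.place (h : GdxData A ϖ) : Place L F where
  toValuationSubring := h.valSub
  algebraMap_mem' c := h.mem_valSub_of_mem (A.algebraMap_mem c)
  ne_top' := by
    intro htop
    apply h.inv_not_mem_valSub
    rw [htop]
    exact ValuationSubring.mem_top _
  isPrincipalIdealRing' := by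
    have : IsDiscreteValuationRing h.valSub :=
      IsDiscreteValuationRing.ofHasUnitMulPowIrreducibleFactorization
        ⟨h.unif, h.irreducible_unif, fun hx => h.associated_pow hx⟩
    infer_instance

theorem GdxData.ord_unif (h : GdxData A ϖ) : h.place.ord ϖ = 1 :=
  h.place.ord_coe_irreducible (π := h.unif) h.irreducible_unif

theorem GdxData.ord_of_u (h : GdxData A ϖ) {s : F} (hs : GdxU A ϖ s) : h.place.ord s = 0 :=
  h.place.ord_coe_unit (h.isUnit_of_u hs).unit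

end Abstract

end Fermat.Agent.G
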