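import Mathlib
import Fermat.Prelude.Def_ModularCurve_LaurentCoeff

/-!
# Program G, descent: `K((q)) ∩ (F₀ ⊗ L) = F₀ ⊗ K`

For fields `K ⊆ L` of characteristic zero and a subfield `F₀ ⊆ ℚ((q))`: a Laurent series with
coefficients in `K` whose image in `L((q))` lies in `laurentBaseChange L F₀` already lies in
`laurentBaseChange K F₀`.  Proof by the coefficientwise functional attached to a `K`-linear form
`L → K`.
-/

set_option autoImplicit false

noncomputable section

namespace Fermat.Agent.G

open ModularCurve HahnSeries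

section Functional

variable {K L : Type*} [Field K] [Field L] [Algebra K L]

/-- the coefficientwise map attached to a linear form. -/
def gdiLam (lam : L →ₗ[K] K) : LaurentSeries L →+ LaurentSeries K where
  toFun s := s.map lam
  map_zero' := by
    ext m
    simp
  map_add' x y := by
    ext m
    simp

@[simp]
theorem gdiLam_coeff (lam : L →ₗ[K] K) (s : LaurentSeries L) (m : ℤ) :
    (gdiLam lam s).coeff m = lam (s.coeff m) := rfl

theorem gdiLam_support_subset (lam : L →ₗ[K] K) (s : LaurentSeries L) :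
    (gdiLam lam s).support ⊆ s.support := by
  intro m hm
  rw [HahnSeries.mem_support] at hm ⊢
  intro h0
  apply hm
  rw [gdiLam_coeff, h0, map_zero]

theorem gdi_coeffMap_support_subset (x : LaurentSeries K) :
    (coeffMap (algebraMap K L) x).support ⊆ x.support := by
  intro m hm
  rw [HahnSeries.mem_support] at hm ⊢
  intro h0
  apply hm
  rw [coeffMap_coeff, h0, map_zero]

/-- semilinearity: `Λ (ι x * s) = x * Λ s`. -/
theorem gdiLam_mul (lam : L →ₗ[K] K) (x : LaurentSeries K) (s : LaurentSeries L) :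
    gdiLam lam (coeffMap (algebraMap K L) x * s) = x * gdiLam lam s := by
  ext n
  rw [gdiLam_coeff,
    HahnSeries.coeff_mul_left' (x := coeffMap (algebraMap K L) x) (y := s) x.isPWO_support
      (gdi_coeffMap_support_subset x),
    HahnSeries.coeff_mul_right' (x := x) (y := gdiLam lam s) s.isPWO_support
      (gdiLam_support_subset lam s), map_sum]
  refine Finset.sum_congr rfl fun ij _ => ?_
  rw [coeffMap_coeff, gdiLam_coeff, ← Algebra.smul_def, map_smul, smul_eq_mul]

theorem gdi_exists_lam_ne_zero (s : LaurentSeries L) (hs : s ≠ 0) :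
    ∃ lam : L →ₗ[K] K, gdiLam lam s ≠ 0 := by
  obtain ⟨m, hm⟩ : ∃ m, s.coeff m ≠ 0 := by
    by_contra h
    push Not at h
    exact hs (HahnSeries.ext (funext fun m => by rw [h m]; rfl))
  obtain ⟨lam, hlam⟩ : ∃ lam : Module.Dual K L, lam (s.coeff m) ≠ 0 := by
    by_contra h
    push Not at h
    exact hm ((Module.forall_dual_apply_eq_zero_iff K _).mp h)
  refine ⟨lam, fun h => hlam ?_⟩
  have := congrArg (fun t => HahnSeries.coeff t m) h
  simpa using this

end Functional

section Inter

variable {K L : Type*} [Field K] [Field L] [Algebra K L] [Algebra ℚ K] [Algebra ℚ L]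
variable (F₀ : IntermediateField ℚ (LaurentSeries ℚ))

omit [Algebra K L] in
theorem gdi_coeffEmb_eq' (ι : K →+* L) (w : LaurentSeries ℚ) :
    coeffEmb L w = coeffMap ι (coeffEmb K w) := by
  rw [coeffEmb, coeffEmb, coeffMap_coeffMap]
  exact coeffMap_congr (Subsingleton.elim _ _) w

theorem gdi_coeffEmb_eq (w : LaurentSeries ℚ) :
    coeffEmb L w = coeffMap (algebraMap K L) (coeffEmb K w) :=
  gdi_coeffEmb_eq' (algebraMap K L) w

omit [Algebra K L] [Algebra ℚ K] [Algebra ℚ L] [Field K] in
theorem gdi_single_zero_mul_coeff (c : L) (y : LaurentSeries L) (m : ℤ) :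
    (HahnSeries.single 0 c * y).coeff m = c * y.coeff m := by
  have := HahnSeries.coeff_single_mul_add (r := c) (x := y) (a := m) (b := 0)
  rwa [add_zero] at this

omit [Algebra ℚ K] [Algebra ℚ L] in
/-- `Λ (l * ι w) = lam l * w`. -/
theorem gdiLam_algebraMap_mul (lam : L →ₗ[K] K) (l : L) (w : LaurentSeries K) :
    gdiLam lam (algebraMap L (LaurentSeries L) l * coeffMap (algebraMap K L) w) =
      algebraMap K (LaurentSeries K) (lam l) * w := by
  rw [algebraMap_laurentSeries_eq_single, algebraMap_laurentSeries_eq_single]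
  ext m
  rw [gdiLam_coeff, gdi_single_zero_mul_coeff, gdi_single_zero_mul_coeff, coeffMap_coeff, mul_comm,
    ← Algebra.smul_def, map_smul, smul_eq_mul, mul_comm]

/-- the multiplicative monoid of the products `l * ι w`, `w ∈ F₀`. -/
def gdiMon : Submonoid (LaurentSeries L) where
  carrier := {z | ∃ l : L, ∃ w ∈ F₀, z = algebraMap L (LaurentSeries L) l * coeffEmb L w}
  one_mem' := ⟨1, 1, F₀.one_mem, by rw [map_one, map_one, one_mul]⟩
  mul_mem' := by
    rintro _ _ ⟨l, w, hw, rfl⟩ ⟨l', w', hw', rfl⟩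
    exact ⟨l * l', w * w', F₀.mul_mem hw hw', by rw [map_mul, map_mul]; ring⟩

theorem gdi_adjoin_le (r : LaurentSeries L)
    (hr : r ∈ Algebra.adjoin L (⇑(coeffEmb L) '' (F₀ : Set (LaurentSeries ℚ)))) :
    r ∈ AddSubgroup.closure ((gdiMon (L := L) F₀ : Set (LaurentSeries L))) := by
  have h1 : r ∈ (Algebra.adjoin L (⇑(coeffEmb L) '' (F₀ : Set (LaurentSeries ℚ)))).toSubring := hr
  rw [Algebra.adjoin_eq_ring_closure, Subring.mem_closure_iff] at h1
  refine AddSubgroup.closure_mono ?_ h1
  have : Submonoid.closure (Set.range (algebraMap L (LaurentSeries L)) ∪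
      ⇑(coeffEmb L) '' (F₀ : Set (LaurentSeries ℚ))) ≤ gdiMon (L := L) F₀ := by
    rw [Submonoid.closure_le]
    rintro z (⟨l, rfl⟩ | ⟨w, hw, rfl⟩)
    · exact ⟨l, 1, F₀.one_mem, by rw [map_one, mul_one]⟩
    · exact ⟨1, w, hw, by rw [map_one, one_mul]⟩
  exact fun z hz => this hz

theorem gdiLam_mem (lam : L →ₗ[K] K) (r : LaurentSeries L)
    (hr : r ∈ Algebra.adjoin L (⇑(coeffEmb L) '' (F₀ : Set (LaurentSeries ℚ)))) :
    gdiLam lam r ∈ laurentBaseChange K F₀ := by
  have h := gdi_adjoin_le F₀ r hr
  clear hr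
  induction h using AddSubgroup.closure_induction with
  | mem z hz =>
    obtain ⟨l, w, hw, rfl⟩ := hz
    rw [gdi_coeffEmb_eq (K := K), gdiLam_algebraMap_mul]
    exact mul_mem ((laurentBaseChange K F₀).algebraMap_mem _) (coeffEmb_mem_laurentBaseChange K hw)
  | zero => rw [map_zero]; exact zero_mem _
  | add x y _ _ hx hy => rw [map_add]; exact add_mem hx hy
  | neg x _ hx => rw [map_neg]; exact neg_mem hx

/-- **descent of membership**: a series with coefficients in `K` lying in `F₀ ⊗ L` lies in
`F₀ ⊗ K`. -/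
theorem gdi_mem_of_coeffMap_mem (x : LaurentSeries K)
    (hx : coeffMap (algebraMap K L) x ∈ laurentBaseChange L F₀) :
    x ∈ laurentBaseChange K F₀ := by
  rw [laurentBaseChange, IntermediateField.mem_adjoin_iff_div] at hx
  obtain ⟨r, hr, s, hs, hrs⟩ := hx
  by_cases hs0 : s = 0
  · rw [hs0, div_zero] at hrs
    have : x = 0 := by
      ext m
      have := congrArg (fun t => HahnSeries.coeff t m) hrs
      simp only [coeffMap_coeff, HahnSeries.coeff_zero] at this
      exact (map_eq_zero _).mp this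
    rw [this]
    exact zero_mem _
  · obtain ⟨lam, hlam⟩ := gdi_exists_lam_ne_zero (K := K) s hs0
    have h1 : coeffMap (algebraMap K L) x * s = r := by
      rw [hrs, div_mul_cancel₀ _ hs0]
    have h2 : x * gdiLam lam s = gdiLam lam r := by rw [← gdiLam_mul, h1]
    have h3 : x = gdiLam lam r / gdiLam lam s := by
      rw [eq_div_iff hlam, h2]
    rw [h3]
    exact div_mem (gdiLam_mem F₀ lam r hr) (gdiLam_mem F₀ lam s hs)

end Inter

end Fermat.Agent.G
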