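import Mathlib
import Fermat.Agent.G.Desc.Defs
import Fermat.Agent.G.Desc.Inter
import Fermat.Agent.G.Desc.ExtendAbs
import Fermat.Agent.S24.PlacesCenter

/-!
# Program G, package G/Desc, rows B3 + B4 : extension of places `F₀ ⊗ K → F₀ ⊗ L` with `e = 1`

The GAUSS EXTENSION of a place `P` of `F_K := F₀ ⊗ K` to `F_L := F₀ ⊗ L` (`K` algebraically
closed, so the residue field of `P` is `K`):

* `A := gdxAlg F₀ P` is the `L`-subalgebra of `F_L` generated by `ι(𝒪_P)`, `ϖ := ι π` for a
  uniformiser `π` of `P`;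
* `gdx_gen`    : `F_L` is the fraction field of `A`;
* `gdx_decomp` : every `a ∈ A` is `α + ϖ a'` with `α ∈ L` (residue field of `P` is `K`);
* `gdx_sep`    : a nonzero `a ∈ A` is not divisible by all powers of `ϖ` (coefficientwise
  functionals `gdiLam`: `Λ(ϖ ^ n b) = π ^ n Λ(b)` and `Λ(A) ⊆ 𝒪_P`);
* the abstract lemma `GdxData.place` (file `ExtendAbs.lean`) makes `A_(ϖ)` a place `P'` of
  `F_L / L` with `ord ϖ = 1` and `ord = 0` on the elements of `A` not divisible by `ϖ`;
* `gdx_place_extend` (= `gd_place_extend` of the Spec, VERBATIM) and `gdx_place_extend_aux`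
  (= `gd_place_extend_aux`, VERBATIM, with `e = 1`).

No counting argument, no `gd_place_restrict`, no `gd_isSepGen`, no `gd_finrank_le` is needed.
-/

set_option autoImplicit false

noncomputable section

namespace Fermat.Agent.G

open ModularCurve AlgebraicCurve HahnSeries IntermediateField Fermat.Agent.S24

section Functional

variable {K L : Type*} [Field K] [Field L] [Algebra K L]

theorem gdx_lam_algebraMap (lam : L →ₗ[K] K) (c : L) :
    gdiLam lam (algebraMap L (LaurentSeries L) c) = algebraMap K (LaurentSeries K) (lam c) := by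
  have h := gdiLam_algebraMap_mul lam c (1 : LaurentSeries K)
  rwa [map_one, mul_one, mul_one] at h

theorem gdx_lam_coeffMap (lam : L →ₗ[K] K) (x : LaurentSeries K) :
    gdiLam lam (coeffMap (algebraMap K L) x) = x * algebraMap K (LaurentSeries K) (lam 1) := by
  have h := gdiLam_mul lam x (1 : LaurentSeries L)
  rw [mul_one] at h
  rw [h, ← gdx_lam_algebraMap, (algebraMap L (LaurentSeries L)).map_one]

theorem gdx_lam_smul (lam : L →ₗ[K] K) (c : L) (s : LaurentSeries L) :
    gdiLam lam (algebraMap L (LaurentSeries L) c * s) =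
      gdiLam (lam.comp (LinearMap.mulLeft K c)) s := by
  ext m
  rw [gdiLam_coeff, gdiLam_coeff, algebraMap_laurentSeries_eq_single, gdi_single_zero_mul_coeff]
  rfl

end Functional

section Extend

variable {K L : Type*} [Field K] [Field L] [Algebra K L] [Algebra ℚ K] [Algebra ℚ L]
variable (F₀ : IntermediateField ℚ (LaurentSeries ℚ))

/-- the `L`-subalgebra of `F₀ ⊗ L` generated by `ι(𝒪_P)`. -/
def gdxAlg (P : Place K (laurentBaseChange K F₀)) : Subalgebra L (laurentBaseChange L F₀) :=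
  Algebra.adjoin L (gdIota K L F₀ '' (P.toValuationSubring : Set (laurentBaseChange K F₀)))

variable {F₀}

theorem gdx_iota_mem (P : Place K (laurentBaseChange K F₀)) {z : laurentBaseChange K F₀}
    (hz : z ∈ P.toValuationSubring) : gdIota K L F₀ z ∈ gdxAlg (L := L) F₀ P :=
  Algebra.subset_adjoin ⟨z, hz, rfl⟩

theorem gdx_iota_injective : Function.Injective (gdIota K L F₀) :=
  (gdIota K L F₀).injective

/-- coefficientwise functionals map the algebra generated by `ι(𝒪_P)` into `𝒪_P`. -/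
theorem gdx_lam_mem (P : Place K (laurentBaseChange K F₀)) {a : laurentBaseChange L F₀}
    (ha : a ∈ gdxAlg (L := L) F₀ P) :
    ∀ lam : L →ₗ[K] K, ∃ z : laurentBaseChange K F₀, z ∈ P.toValuationSubring ∧
      (z : LaurentSeries K) = gdiLam lam (a : LaurentSeries L) := by
  have h1 : a ∈ Subalgebra.toSubmodule (gdxAlg (L := L) F₀ P) := ha
  rw [gdxAlg, Algebra.adjoin_eq_span] at h1
  have hcl : (Submonoid.closure
      (gdIota K L F₀ '' (P.toValuationSubring : Set (laurentBaseChange K F₀))) :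
        Set (laurentBaseChange L F₀)) =
      gdIota K L F₀ '' (P.toValuationSubring : Set (laurentBaseChange K F₀)) := by
    have h2 : gdIota K L F₀ '' (P.toValuationSubring : Set (laurentBaseChange K F₀)) =
        ((P.toValuationSubring.toSubring.toSubmonoid.map
          (gdIota K L F₀ : laurentBaseChange K F₀ →* laurentBaseChange L F₀) :
          Submonoid (laurentBaseChange L F₀)) : Set (laurentBaseChange L F₀)) := rfl
    rw [h2, Submonoid.closure_eq]
  rw [hcl] at h1
  clear ha
  induction h1 using Submodule.span_induction with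
  | mem x hx =>
    obtain ⟨z, hz, rfl⟩ := hx
    intro lam
    refine ⟨z * algebraMap K _ (lam 1), mul_mem hz (P.algebraMap_mem' _), ?_⟩
    rw [coe_gdIota, gdx_lam_coeffMap]
    rfl
  | zero =>
    intro lam
    exact ⟨0, zero_mem _, by simp⟩
  | add x y _ _ hx hy =>
    intro lam
    obtain ⟨z, hz, hzz⟩ := hx lam
    obtain ⟨w, hw, hww⟩ := hy lam
    refine ⟨z + w, add_mem hz hw, ?_⟩
    rw [IntermediateField.coe_add, IntermediateField.coe_add, map_add, hzz, hww]
  | smul c x _ hx =>
    intro lam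
    obtain ⟨z, hz, hzz⟩ := hx (lam.comp (LinearMap.mulLeft K c))
    refine ⟨z, hz, ?_⟩
    rw [hzz, IntermediateField.coe_smul, Algebra.smul_def, gdx_lam_smul]

theorem gdx_lam_pow_mul (lam : L →ₗ[K] K) (p : laurentBaseChange K F₀) (n : ℕ)
    (b : laurentBaseChange L F₀) :
    gdiLam lam ((gdIota K L F₀ p ^ n * b : laurentBaseChange L F₀) : LaurentSeries L) =
      (p : LaurentSeries K) ^ n * gdiLam lam (b : LaurentSeries L) := by
  rw [IntermediateField.coe_mul, IntermediateField.coe_pow, coe_gdIota, ← map_pow, gdiLam_mul]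

/-- the image of every element of `F₀ ⊗ K` is a fraction of elements of the algebra. -/
theorem gdx_iota_frac (P : Place K (laurentBaseChange K F₀)) (z : laurentBaseChange K F₀) :
    ∃ a ∈ gdxAlg (L := L) F₀ P, ∃ b ∈ gdxAlg (L := L) F₀ P, b ≠ 0 ∧ gdIota K L F₀ z = a / b := by
  rcases eq_or_ne z 0 with rfl | hz0
  · exact ⟨0, zero_mem _, 1, one_mem _, one_ne_zero, by rw [map_zero, zero_div]⟩
  rcases P.toValuationSubring.mem_or_inv_mem z with hz | hz
  · exact ⟨_, gdx_iota_mem P hz, 1, one_mem _, one_ne_zero, by rw [div_one]⟩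
  · refine ⟨1, one_mem _, _, gdx_iota_mem P hz, ?_, ?_⟩
    · rw [map_inv₀]
      exact inv_ne_zero ((map_ne_zero _).2 hz0)
    · rw [map_inv₀, one_div, inv_inv]

/-- `F₀ ⊗ L` is the fraction field of the algebra. -/
theorem gdx_gen (P : Place K (laurentBaseChange K F₀)) (y : laurentBaseChange L F₀) :
    ∃ a ∈ gdxAlg (L := L) F₀ P, ∃ b ∈ gdxAlg (L := L) F₀ P, b ≠ 0 ∧ y = a / b := by
  obtain ⟨y, hy⟩ := y
  refine IntermediateField.adjoin_induction (F := L)
    (s := ⇑(coeffEmb L) '' (F₀ : Set (LaurentSeries ℚ)))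
    (p := fun y hy => ∃ a ∈ gdxAlg (L := L) F₀ P, ∃ b ∈ gdxAlg (L := L) F₀ P, b ≠ 0 ∧
      (⟨y, hy⟩ : laurentBaseChange L F₀) = a / b) ?_ ?_ ?_ ?_ ?_ hy
  · rintro x ⟨w, hw, rfl⟩
    have h1 : (⟨coeffEmb L w, IntermediateField.subset_adjoin L _ ⟨w, hw, rfl⟩⟩ :
        laurentBaseChange L F₀) =
        gdIota K L F₀ ⟨coeffEmb K w, coeffEmb_mem_laurentBaseChange K hw⟩ :=
      Subtype.ext (gd_coeffEmb_eq K L w).symm
    rw [h1]
    exact gdx_iota_frac P _
  · intro c
    exact ⟨algebraMap L _ c, Subalgebra.algebraMap_mem _ c, 1, one_mem _, one_ne_zero,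
      by rw [div_one]; rfl⟩
  · rintro x y hx hy ⟨a, ha, b, hb, hb0, hab⟩ ⟨a', ha', b', hb', hb0', hab'⟩
    refine ⟨a * b' + b * a', add_mem (mul_mem ha hb') (mul_mem hb ha'), b * b', mul_mem hb hb',
      mul_ne_zero hb0 hb0', ?_⟩
    rw [← div_add_div _ _ hb0 hb0', ← hab, ← hab']
    rfl
  · rintro x hx ⟨a, ha, b, hb, hb0, hab⟩
    rcases eq_or_ne a 0 with rfl | ha0
    · refine ⟨0, zero_mem _, 1, one_mem _, one_ne_zero, ?_⟩
      rw [zero_div] at hab ⊢
      have : x = 0 := congrArg Subtype.val hab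
      subst this
      exact Subtype.ext inv_zero
    · refine ⟨b, hb, a, ha, ha0, ?_⟩
      rw [← inv_div, ← hab]
      rfl
  · rintro x y hx hy ⟨a, ha, b, hb, hb0, hab⟩ ⟨a', ha', b', hb', hb0', hab'⟩
    refine ⟨a * a', mul_mem ha ha', b * b', mul_mem hb hb', mul_ne_zero hb0 hb0', ?_⟩
    rw [← div_mul_div_comm, ← hab, ← hab']
    rfl

/-- every element of the algebra is a constant plus a multiple of `ι π`. -/
theorem gdx_decomp [IsAlgClosed K] {t : laurentBaseChange K F₀} (ht : IsSepGen K t)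
    (P : Place K (laurentBaseChange K F₀)) {π : P.toValuationSubring} (hπ : Irreducible π)
    {a : laurentBaseChange L F₀} (ha : a ∈ gdxAlg (L := L) F₀ P) :
    ∃ α : L, ∃ a' ∈ gdxAlg (L := L) F₀ P,
      a = algebraMap L (laurentBaseChange L F₀) α +
        gdIota K L F₀ (π : laurentBaseChange K F₀) * a' := by
  unfold gdxAlg at ha
  induction ha using Algebra.adjoin_induction with
  | mem x hx =>
    obtain ⟨z, hz, rfl⟩ := hx
    obtain ⟨c, hc⟩ := ht.algebraMap_residueField_surjective P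
      (IsLocalRing.residue _ (⟨z, hz⟩ : P.toValuationSubring))
    have h1 : (⟨z, hz⟩ - algebraMap K P.toValuationSubring c : P.toValuationSubring) ∈
        IsLocalRing.maximalIdeal P.toValuationSubring := by
      rw [← IsLocalRing.residue_eq_zero_iff, map_sub, sub_eq_zero, ← hc]
      rfl
    rw [hπ.maximalIdeal_eq, Ideal.mem_span_singleton] at h1
    obtain ⟨z', hz'⟩ := h1
    refine ⟨algebraMap K L c, gdIota K L F₀ (z' : laurentBaseChange K F₀),
      gdx_iota_mem P z'.2, ?_⟩
    have h2 : z = algebraMap K (laurentBaseChange K F₀) c +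
        (π : laurentBaseChange K F₀) * (z' : laurentBaseChange K F₀) := by
      have h3 : z - algebraMap K (laurentBaseChange K F₀) c =
          (π : laurentBaseChange K F₀) * (z' : laurentBaseChange K F₀) :=
        congrArg Subtype.val hz'
      rw [← h3]
      ring
    conv_lhs => rw [h2]
    rw [map_add, map_mul, gdIota_algebraMap]
  | algebraMap r =>
    exact ⟨r, 0, zero_mem _, by rw [mul_zero, add_zero]⟩
  | add x y _ _ hx hy =>
    obtain ⟨α, a', ha', rfl⟩ := hx
    obtain ⟨β, b', hb', rfl⟩ := hy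
    exact ⟨α + β, a' + b', add_mem ha' hb', by rw [map_add]; ring⟩
  | mul x y _ _ hx hy =>
    obtain ⟨α, a', ha', rfl⟩ := hx
    obtain ⟨β, b', hb', rfl⟩ := hy
    refine ⟨α * β, algebraMap L _ α * b' + algebraMap L _ β * a' +
      gdIota K L F₀ (π : laurentBaseChange K F₀) * a' * b', ?_, by rw [map_mul]; ring⟩
    exact add_mem (add_mem (mul_mem (Subalgebra.algebraMap_mem _ _) hb')
      (mul_mem (Subalgebra.algebraMap_mem _ _) ha'))
      (mul_mem (mul_mem (gdx_iota_mem P π.2) ha') hb')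

/-- no nonzero element of the algebra is divisible by all powers of `ι π`. -/
theorem gdx_sep (P : Place K (laurentBaseChange K F₀)) {π : P.toValuationSubring}
    (hπ : Irreducible π) {a : laurentBaseChange L F₀} (ha : a ∈ gdxAlg (L := L) F₀ P)
    (ha0 : a ≠ 0) :
    ∃ n : ℕ, ∀ b ∈ gdxAlg (L := L) F₀ P,
      a ≠ gdIota K L F₀ (π : laurentBaseChange K F₀) ^ (n + 1) * b := by
  have ha0' : (a : LaurentSeries L) ≠ 0 := fun h => ha0 (Subtype.ext h)
  obtain ⟨lam, hlam⟩ := gdi_exists_lam_ne_zero (K := K) (a : LaurentSeries L) ha0'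
  obtain ⟨z, hz, hzz⟩ := gdx_lam_mem P ha lam
  have hz0 : z ≠ 0 := by
    rintro rfl
    exact hlam hzz.symm
  refine ⟨(P.ord z).toNat, fun b hb hab => ?_⟩
  obtain ⟨w, hw, hww⟩ := gdx_lam_mem P hb lam
  have h1 : z = (π : laurentBaseChange K F₀) ^ ((P.ord z).toNat + 1) * w := by
    apply Subtype.ext
    rw [hzz, hab, gdx_lam_pow_mul, ← hww]
    rfl
  have hw0 : w ≠ 0 := by
    rintro rfl
    rw [mul_zero] at h1
    exact hz0 h1
  have hπ0 : (π : laurentBaseChange K F₀) ≠ 0 := PlaceOrd.coe_irreducible_ne_zero P hπ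
  have h2 : P.ord z = (((P.ord z).toNat + 1 : ℕ) : ℤ) + P.ord w := by
    conv_lhs => rw [h1]
    rw [P.ord_mul (pow_ne_zero _ hπ0) hw0, ← zpow_natCast, P.ord_zpow, P.ord_coe_irreducible hπ,
      mul_one]
  have h3 := PlaceOrd.ord_nonneg_of_mem P hw
  have h4 := PlaceOrd.ord_nonneg_of_mem P hz
  push_cast at h2
  omega

theorem gdx_data [IsAlgClosed K] {t : laurentBaseChange K F₀} (ht : IsSepGen K t)
    (P : Place K (laurentBaseChange K F₀)) {π : P.toValuationSubring} (hπ : Irreducible π) :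
    GdxData (gdxAlg (L := L) F₀ P) (gdIota K L F₀ (π : laurentBaseChange K F₀)) where
  mem := gdx_iota_mem P π.2
  ne_zero := (map_ne_zero _).2 (PlaceOrd.coe_irreducible_ne_zero P hπ)
  gen := gdx_gen P
  decomp := fun _ ha => gdx_decomp ht P hπ ha
  sep := fun _ ha ha0 => gdx_sep P hπ ha ha0

/-- **Gauss extension of a place**: every place of `F₀ ⊗ K` extends to `F₀ ⊗ L` with
ramification index one. -/
theorem gdx_place_extend_of_isSepGen [IsAlgClosed K] {t : laurentBaseChange K F₀}
    (ht : IsSepGen K t) (P : Place K (laurentBaseChange K F₀)) :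
    ∃ P' : Place L (laurentBaseChange L F₀),
      ∀ x : laurentBaseChange K F₀, P'.ord (gdIota K L F₀ x) = P.ord x := by
  obtain ⟨π, hπ⟩ := IsDiscreteValuationRing.exists_irreducible P.toValuationSubring
  have hd := gdx_data (L := L) ht P hπ
  refine ⟨hd.place, fun x => ?_⟩
  rcases eq_or_ne x 0 with rfl | hx
  · rw [map_zero, Place.ord_zero, Place.ord_zero]
  obtain ⟨u, hu⟩ := P.exists_unit_mul_zpow hx hπ
  have hπ0 := PlaceOrd.coe_irreducible_ne_zero P hπ
  have hU : GdxU (gdxAlg (L := L) F₀ P) (gdIota K L F₀ (π : laurentBaseChange K F₀))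
      (gdIota K L F₀ ((u : P.toValuationSubring) : laurentBaseChange K F₀)) := by
    refine ⟨gdx_iota_mem P (u : P.toValuationSubring).2, fun b hb hub => ?_⟩
    apply hd.not_unit
      (gdIota K L F₀ (((u⁻¹ : P.toValuationSubringˣ) : P.toValuationSubring) :
        laurentBaseChange K F₀) * b)
      (mul_mem (gdx_iota_mem P ((u⁻¹ : P.toValuationSubringˣ) : P.toValuationSubring).2) hb)
    rw [mul_left_comm, ← hub, ← map_mul]
    have h1 : (((u⁻¹ : P.toValuationSubringˣ) : P.toValuationSubring) :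
        laurentBaseChange K F₀) * ((u : P.toValuationSubring) : laurentBaseChange K F₀) = 1 := by
      have := congrArg Subtype.val (Units.inv_mul u)
      exact this
    rw [h1, map_one]
  have hu0 : gdIota K L F₀ ((u : P.toValuationSubring) : laurentBaseChange K F₀) ≠ 0 := hU.ne_zero
  have hϖ0 : gdIota K L F₀ (π : laurentBaseChange K F₀) ≠ 0 := hd.ne_zero
  conv_lhs => rw [hu]
  rw [map_mul, map_zpow₀, hd.place.ord_mul hu0 (zpow_ne_zero _ hϖ0), hd.place.ord_zpow,
    hd.ord_unif, hd.ord_of_u hU, mul_one, zero_add]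

end Extend

section Base

variable {K L : Type*} [Field K] [Field L] [Algebra K L] [Algebra ℚ K] [Algebra ℚ L]
  [IsAlgClosed K] [IsAlgClosed L] [CharZero K] [CharZero L]
variable (F₀ : IntermediateField ℚ (LaurentSeries ℚ)) (hj : jq ∈ F₀)

/-- (B4) every place of `F₀ ⊗ K` extends to `F₀ ⊗ L` with `e = 1`. -/
theorem gdx_place_extend (hK : IsSepGen K (gdJ K F₀ hj)) (P : Place K (laurentBaseChange K F₀)) :
    ∃ P' : Place L (laurentBaseChange L F₀),
      ∀ x : laurentBaseChange K F₀, P'.ord (gdIota K L F₀ x) = P.ord x :=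
  gdx_place_extend_of_isSepGen hK P

/-- (B3) every place of `F₀ ⊗ K` extends to `F₀ ⊗ L` (with `e = 1`). -/
theorem gdx_place_extend_aux (hK : IsSepGen K (gdJ K F₀ hj))
    (P : Place K (laurentBaseChange K F₀)) :
    ∃ (P' : Place L (laurentBaseChange L F₀)) (e : ℕ), 0 < e ∧
      ∀ x : laurentBaseChange K F₀, P'.ord (gdIota K L F₀ x) = (e : ℤ) * P.ord x := by
  obtain ⟨P', hP'⟩ := gdx_place_extend (L := L) F₀ hj hK P
  exact ⟨P', 1, one_pos, fun x => by rw [hP' x, Nat.cast_one, one_mul]⟩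

end Base

end Fermat.Agent.G
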