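import Mathlib
import Fermat.Agent.G.Desc.Extend

/-!
# Program G, package G/Desc : rows 509 + 510 wired

`gd_place_extend_aux` (B3) and `gd_place_extend` (B4) from helper8's Gauss extension
(`Desc/Extend.lean` + `Desc/ExtendAbs.lean`, `e = 1` directly).  The counting route
(helper25's `ExtendOne.lean` + B1, B2) is no longer needed for (B4); it stays in the package.
-/

set_option autoImplicit false

noncomputable section

namespace Fermat.Agent.G

open ModularCurve AlgebraicCurve HahnSeries IntermediateField Fermat.Agent.S24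

variable {K L : Type*} [Field K] [Field L] [Algebra K L] [Algebra ℚ K] [Algebra ℚ L]
  [IsAlgClosed K] [IsAlgClosed L] [CharZero K] [CharZero L]
variable (F₀ : IntermediateField ℚ (LaurentSeries ℚ)) (hj : jq ∈ F₀)

/-- (B3) every place of `F₀ ⊗ K` extends to `F₀ ⊗ L` (some ramification index `e ≥ 1`). -/
theorem gd_place_extend_aux (hK : IsSepGen K (gdJ K F₀ hj))
    (P : Place K (laurentBaseChange K F₀)) :
    ∃ (P' : Place L (laurentBaseChange L F₀)) (e : ℕ), 0 < e ∧
      ∀ x : laurentBaseChange K F₀, P'.ord (gdIota K L F₀ x) = (e : ℤ) * P.ord x :=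
  gdx_place_extend_aux F₀ hj hK P

/-- (B4) every place of `F₀ ⊗ K` extends to `F₀ ⊗ L` with `e = 1`. -/
theorem gd_place_extend (hK : IsSepGen K (gdJ K F₀ hj)) (P : Place K (laurentBaseChange K F₀)) :
    ∃ P' : Place L (laurentBaseChange L F₀),
      ∀ x : laurentBaseChange K F₀, P'.ord (gdIota K L F₀ x) = P.ord x :=
  gdx_place_extend F₀ hj hK P

end Fermat.Agent.G
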