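import Mathlib

/-!
# Program G, descent: an element with finite orbit under `Aut(L/K)` lies in `K`

`K ⊆ L` algebraically closed fields.  If `c : L` has a finite orbit under `L ≃ₐ[K] L`, then `c` is in
the image of `K`.  (A transcendental `c` is moved to `c + a` for every `a : K` by an automorphism:
translate one element of a transcendence basis through `c` and extend to the algebraic closure.)
-/

set_option autoImplicit false

noncomputable section

namespace Fermat.Agent.G

open MvPolynomial

variable {K L : Type*} [Field K] [Field L] [Algebra K L]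

section Shift

variable {ι : Type*} [DecidableEq ι]

/-- the translation `X i₀ ↦ X i₀ + a` of a polynomial ring. -/
def gdoShiftHom (i₀ : ι) (a : K) : MvPolynomial ι K →ₐ[K] MvPolynomial ι K :=
  aeval fun i => if i = i₀ then X i + C a else X i

theorem gdoShiftHom_X_self (i₀ : ι) (a : K) : gdoShiftHom i₀ a (X i₀) = X i₀ + C a := by
  simp [gdoShiftHom]

theorem gdoShiftHom_X_of_ne (i₀ : ι) (a : K) {i : ι} (h : i ≠ i₀) :
    gdoShiftHom i₀ a (X i) = X i := by
  simp [gdoShiftHom, h]

theorem gdoShiftHom_comp (i₀ : ι) (a b : K) :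
    (gdoShiftHom i₀ a).comp (gdoShiftHom i₀ b) = gdoShiftHom i₀ (a + b) := by
  apply MvPolynomial.algHom_ext
  intro i
  by_cases h : i = i₀
  · subst h
    rw [AlgHom.comp_apply, gdoShiftHom_X_self, map_add, gdoShiftHom_X_self, gdoShiftHom_X_self,
      MvPolynomial.algHom_C, map_add, MvPolynomial.algebraMap_eq]
    ring
  · rw [AlgHom.comp_apply, gdoShiftHom_X_of_ne _ _ h, gdoShiftHom_X_of_ne _ _ h,
      gdoShiftHom_X_of_ne _ _ h]

theorem gdoShiftHom_zero (i₀ : ι) : gdoShiftHom i₀ (0 : K) = AlgHom.id K _ := by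
  apply MvPolynomial.algHom_ext
  intro i
  by_cases h : i = i₀
  · subst h
    rw [gdoShiftHom_X_self, map_zero, add_zero, AlgHom.id_apply]
  · rw [gdoShiftHom_X_of_ne _ _ h, AlgHom.id_apply]

/-- the translation as an automorphism. -/
def gdoShift (i₀ : ι) (a : K) : MvPolynomial ι K ≃ₐ[K] MvPolynomial ι K :=
  AlgEquiv.ofAlgHom (gdoShiftHom i₀ a) (gdoShiftHom i₀ (-a))
    (by rw [gdoShiftHom_comp, add_neg_cancel, gdoShiftHom_zero])
    (by rw [gdoShiftHom_comp, neg_add_cancel, gdoShiftHom_zero])

theorem gdoShift_X_self (i₀ : ι) (a : K) : gdoShift i₀ a (X i₀) = X i₀ + C a :=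
  gdoShiftHom_X_self i₀ a

end Shift

section Aut

variable [IsAlgClosed L]

/-- for a transcendence basis `v` of `L / K` and an index `i₀`, an automorphism of `L` over `K`
sending `v i₀` to `v i₀ + a`. -/
theorem gdo_exists_algEquiv_shift {ι : Type*} (v : ι → L) (hv : IsTranscendenceBasis K v)
    (i₀ : ι) (a : K) : ∃ σ : L ≃ₐ[K] L, σ (v i₀) = v i₀ + algebraMap K L a := by
  classical
  have := IsAlgClosed.isAlgClosure_of_transcendence_basis v hv
  let e₀ : Algebra.adjoin K (Set.range v) ≃ₐ[K] Algebra.adjoin K (Set.range v) :=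
    (hv.1.aevalEquiv.symm.trans (gdoShift i₀ a)).trans hv.1.aevalEquiv
  let σ₀ : L ≃+* L := IsAlgClosure.equivOfEquiv L L e₀.toRingEquiv
  have hσ₀ : ∀ s : Algebra.adjoin K (Set.range v),
      σ₀ (algebraMap _ L s) = algebraMap _ L (e₀ s) := fun s =>
    IsAlgClosure.equivOfEquiv_algebraMap L L e₀.toRingEquiv s
  have hcomm : ∀ k : K, σ₀ (algebraMap K L k) = algebraMap K L k := by
    intro k
    have h1 : algebraMap K L k =
        algebraMap (Algebra.adjoin K (Set.range v)) L (algebraMap K _ k) := rfl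
    rw [h1, hσ₀, e₀.commutes]
  refine ⟨AlgEquiv.ofRingEquiv (f := σ₀) hcomm, ?_⟩
  show σ₀ (v i₀) = _
  have hmem : v i₀ ∈ Algebra.adjoin K (Set.range v) := Algebra.subset_adjoin ⟨i₀, rfl⟩
  have h2 : v i₀ = algebraMap (Algebra.adjoin K (Set.range v)) L ⟨v i₀, hmem⟩ := rfl
  have key : ∀ p : MvPolynomial ι K,
      ((hv.1.aevalEquiv p : Algebra.adjoin K (Set.range v)) : L) = aeval v p :=
    fun p => hv.1.algebraMap_aevalEquiv p
  have h3 : hv.1.aevalEquiv.symm ⟨v i₀, hmem⟩ = X i₀ := by
    apply hv.1.aevalEquiv.injective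
    rw [AlgEquiv.apply_symm_apply]
    apply Subtype.ext
    rw [key, aeval_X]
  have h4 : e₀ ⟨v i₀, hmem⟩ = ⟨v i₀, hmem⟩ + algebraMap K _ a := by
    show hv.1.aevalEquiv (gdoShift i₀ a (hv.1.aevalEquiv.symm ⟨v i₀, hmem⟩)) = _
    rw [h3, gdoShift_X_self, map_add]
    congr 1
    · apply Subtype.ext
      rw [key, aeval_X]
    · rw [← MvPolynomial.algebraMap_eq, AlgEquiv.commutes]
  rw [h2, hσ₀, h4, map_add]
  rfl

end Aut

section Main

variable [IsAlgClosed K] [IsAlgClosed L]

/-- an element of `L` with a finite orbit under `Aut(L/K)` lies in `K`. -/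
theorem gdo_mem_range_of_finite_orbit (c : L)
    (h : (Set.range fun σ : L ≃ₐ[K] L => σ c).Finite) : c ∈ Set.range (algebraMap K L) := by
  by_contra hc
  have htr : Transcendental K c := by
    intro halg
    apply hc
    have hint : IsIntegral K c := halg.isIntegral
    have hdeg : (minpoly K c).degree = 1 :=
      IsAlgClosed.degree_eq_one_of_irreducible K (minpoly.irreducible hint)
    exact minpoly.mem_range_of_degree_eq_one K c hdeg
  have hind : AlgebraicIndepOn K id ({c} : Set L) := by
    rw [AlgebraicIndepOn]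
    exact (algebraicIndependent_singleton_iff (⟨c, rfl⟩ : ({c} : Set L))).mpr htr
  obtain ⟨t, hct, ht⟩ := exists_isTranscendenceBasis_superset hind
  have hmem : c ∈ t := hct rfl
  have hinj : Function.Injective (algebraMap K L) := (algebraMap K L).injective
  have hsub : (Set.range fun a : K => c + algebraMap K L a) ⊆
      Set.range fun σ : L ≃ₐ[K] L => σ c := by
    rintro _ ⟨a, rfl⟩
    obtain ⟨σ, hσ⟩ := gdo_exists_algEquiv_shift (fun x : t => (x : L)) ht ⟨c, hmem⟩ a
    exact ⟨σ, hσ⟩
  have hinf : (Set.range fun a : K => c + algebraMap K L a).Infinite := by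
    apply Set.infinite_range_of_injective
    intro a b hab
    exact hinj (add_left_cancel hab)
  exact hinf (h.subset hsub)

end Main

end Fermat.Agent.G
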