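import Mathlib
import Fermat.Agent.G.Desc.Orbit
import Fermat.Agent.G.Desc.Inter
import Fermat.Agent.G.Desc.Equiv

/-!
# Program G, G/Desc, row 511 (INJ): `gd_coeff_range`, `gd_mem_range_of_finite_orbit`,
`gd_descent_inj`

* (B5) a Laurent series over `L` with all coefficients in `K` comes from `K((q))`;
* (G5) an element of `F₀ ⊗ L` with finite `Aut(L/K)`-orbit comes from `F₀ ⊗ K`;
* (T2) `ι x = g' ^ n ⟹ x = g ^ n`.
-/

set_option autoImplicit false

noncomputable section

namespace Fermat.Agent.G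

open ModularCurve AlgebraicCurve HahnSeries IntermediateField

section Base

variable {K L : Type*} [Field K] [Field L] [Algebra K L] [Algebra ℚ K] [Algebra ℚ L]
  [IsAlgClosed K] [IsAlgClosed L] [CharZero K] [CharZero L]
variable (F₀ : IntermediateField ℚ (LaurentSeries ℚ)) (hj : jq ∈ F₀)

omit [Algebra ℚ K] [Algebra ℚ L] [IsAlgClosed K] [IsAlgClosed L] [CharZero K] [CharZero L] in
/-- (B5) a series all of whose coefficients lie in `K` comes from `K((q))`. -/
theorem gd_coeff_range (y : LaurentSeries L)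
    (hy : ∀ k : ℤ, y.coeff k ∈ Set.range (algebraMap K L)) :
    ∃ y₀ : LaurentSeries K, coeffMap (algebraMap K L) y₀ = y := by
  choose c hc using hy
  have hsupp : Function.support c = y.support := by
    ext k
    simp only [Function.mem_support, HahnSeries.mem_support, ne_eq]
    rw [← hc k, map_eq_zero]
  refine ⟨⟨c, by rw [hsupp]; exact y.isPWO_support⟩, ?_⟩
  ext k
  rw [coeffMap_coeff]
  exact hc k

end Base

section Galois

variable {K L : Type*} [Field K] [Field L] [Algebra K L] [Algebra ℚ K] [Algebra ℚ L]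
  [IsScalarTower ℚ K L]
variable (F₀ : IntermediateField ℚ (LaurentSeries ℚ)) (hj : jq ∈ F₀)

/-- (G5) a series in `F₀ ⊗ L` with finite `Aut(L/K)`-orbit comes from `F₀ ⊗ K`
(`gdo_mem_range_of_finite_orbit` coefficientwise, `gd_coeff_range`, `gdi_mem_of_coeffMap_mem`). -/
theorem gd_mem_range_of_finite_orbit [IsAlgClosed K] [IsAlgClosed L]
    (x : laurentBaseChange L F₀)
    (hfin : (Set.range fun σ : L ≃ₐ[K] L => gdAct F₀ σ • x).Finite) :
    x ∈ Set.range (gdIota K L F₀) := by
  have hcoef : ∀ k : ℤ, (x : LaurentSeries L).coeff k ∈ Set.range (algebraMap K L) := by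
    intro k
    apply gdo_mem_range_of_finite_orbit
    refine (hfin.image
      (fun y : laurentBaseChange L F₀ => (y : LaurentSeries L).coeff k)).subset ?_
    rintro _ ⟨σ, rfl⟩
    refine ⟨gdAct F₀ σ • x, ⟨σ, rfl⟩, ?_⟩
    show ((gdAct F₀ σ • x : laurentBaseChange L F₀) : LaurentSeries L).coeff k = σ _
    rw [coe_gdAct_smul, coeffMap_coeff]
    rfl
  obtain ⟨y₀, hy₀⟩ := gd_coeff_range (K := K) _ hcoef
  have hmem : y₀ ∈ laurentBaseChange K F₀ :=
    gdi_mem_of_coeffMap_mem F₀ y₀ (by rw [hy₀]; exact x.2)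
  exact ⟨⟨y₀, hmem⟩, Subtype.ext hy₀⟩

end Galois

/-! ## helpers for (T2) -/

section Helpers

variable {K L : Type*} [Field K] [Field L]

/-- an injective coefficient map preserves leading coefficients -/
theorem gdj_leadingCoeff_coeffMap (f : K →+* L) (X : LaurentSeries K) :
    (coeffMap f X).leadingCoeff = f X.leadingCoeff := by
  by_cases hX : X = 0
  · rw [hX, map_zero, HahnSeries.leadingCoeff_zero, HahnSeries.leadingCoeff_zero, map_zero]
  have hY : coeffMap f X ≠ 0 := fun h => hX ((map_eq_zero_iff _ (by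
    intro a b hab
    ext k
    have := congrArg (fun t => HahnSeries.coeff t k) hab
    simp only [coeffMap_coeff] at this
    exact f.injective this)).1 h)
  have h1 : (coeffMap f X).order ≤ X.order := by
    apply HahnSeries.order_le_of_coeff_ne_zero
    rw [coeffMap_coeff]
    exact (map_ne_zero f).2 (fun h => hX (HahnSeries.coeff_order_eq_zero.1 h))
  have h2 : X.order ≤ (coeffMap f X).order := by
    apply HahnSeries.order_le_of_coeff_ne_zero
    have : (coeffMap f X).coeff (coeffMap f X).order ≠ 0 :=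
      fun h => hY (HahnSeries.coeff_order_eq_zero.1 h)
    rw [coeffMap_coeff] at this
    exact (map_ne_zero f).1 this
  rw [HahnSeries.leadingCoeff_eq, HahnSeries.leadingCoeff_eq, coeffMap_coeff, le_antisymm h1 h2]

theorem gdj_leadingCoeff_algebraMap (c : L) :
    (algebraMap L (LaurentSeries L) c).leadingCoeff = c := by
  rw [algebraMap_laurentSeries_eq_single, HahnSeries.leadingCoeff_of_single]

theorem gdj_leadingCoeff_pow (X : LaurentSeries L) (n : ℕ) :
    (X ^ n).leadingCoeff = X.leadingCoeff ^ n := by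
  induction n with
  | zero => rw [pow_zero, pow_zero, HahnSeries.leadingCoeff_one]
  | succ n ih => rw [pow_succ, pow_succ, HahnSeries.leadingCoeff_mul, ih]

/-- an `n`-th root of unity in `L((q))` is a constant (`L` algebraically closed of
characteristic zero) -/
theorem gdj_eq_algebraMap_of_pow_eq_one [IsAlgClosed L] [CharZero L] {n : ℕ} (hn : 0 < n)
    (U : LaurentSeries L) (hU : U ^ n = 1) :
    ∃ ζ : L, U = algebraMap L (LaurentSeries L) ζ := by
  have : NeZero n := ⟨hn.ne'⟩
  have : NeZero (n : L) := ⟨Nat.cast_ne_zero.2 hn.ne'⟩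
  obtain ⟨ζ, hζ⟩ := HasEnoughRootsOfUnity.exists_primitiveRoot L n
  have hζ' : IsPrimitiveRoot (algebraMap L (LaurentSeries L) ζ) n :=
    hζ.map_of_injective (algebraMap L (LaurentSeries L)).injective
  obtain ⟨i, -, hi⟩ := hζ'.eq_pow_of_pow_eq_one hU
  exact ⟨ζ ^ i, by rw [map_pow, hi]⟩

end Helpers

/-! ## TOP : (T2) -/

section Top

variable {K L : Type*} [Field K] [Field L] [Algebra K L] [Algebra ℚ K] [Algebra ℚ L]
  [IsScalarTower ℚ K L] [IsAlgClosed K] [IsAlgClosed L] [CharZero K] [CharZero L]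
variable (F₀ : IntermediateField ℚ (LaurentSeries ℚ)) (hj : jq ∈ F₀)

/-- (T2) injectivity of `W_n(F_K) / F_K^{× n} → W_n(F_L) / F_L^{× n}`. -/
theorem gd_descent_inj (n : ℕ) (hn : 0 < n) (x : laurentBaseChange K F₀) (hx : x ≠ 0)
    (g' : laurentBaseChange L F₀) (h : gdIota K L F₀ x = g' ^ n) :
    ∃ g : laurentBaseChange K F₀, x = g ^ n := by
  have hιinj : Function.Injective (gdIota K L F₀) := (gdIota K L F₀).injective
  -- leading coefficients
  set a : K := (x : LaurentSeries K).leadingCoeff with ha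
  have ha0 : a ≠ 0 := HahnSeries.leadingCoeff_ne_zero.2 (fun h0 => hx (Subtype.ext h0))
  set b : L := (g' : LaurentSeries L).leadingCoeff with hb
  have hg'0 : g' ≠ 0 := by
    rintro rfl
    rw [zero_pow hn.ne'] at h
    exact hx (hιinj (by rw [h, map_zero]))
  have hb0 : b ≠ 0 := HahnSeries.leadingCoeff_ne_zero.2 (fun h0 => hg'0 (Subtype.ext h0))
  have hbn : b ^ n = algebraMap K L a := by
    have h1 : ((gdIota K L F₀ x : laurentBaseChange L F₀) : LaurentSeries L).leadingCoeff =
        ((g' ^ n : laurentBaseChange L F₀) : LaurentSeries L).leadingCoeff := by rw [h]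
    rw [coe_gdIota, gdj_leadingCoeff_coeffMap] at h1
    have h2 : ((g' ^ n : laurentBaseChange L F₀) : LaurentSeries L) =
        (g' : LaurentSeries L) ^ n := rfl
    rw [h2, gdj_leadingCoeff_pow] at h1
    exact h1.symm
  -- normalisations
  set x₁ : laurentBaseChange K F₀ := (algebraMap K (laurentBaseChange K F₀) a)⁻¹ * x with hx₁d
  set g'' : laurentBaseChange L F₀ := (algebraMap L (laurentBaseChange L F₀) b)⁻¹ * g' with hg''d
  have hx₁ : gdIota K L F₀ x₁ = g'' ^ n := by
    rw [hx₁d, hg''d, map_mul, map_inv₀, gdIota_algebraMap, h, mul_pow, inv_pow, ← map_pow, hbn]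
  have hcoe : (g'' : LaurentSeries L) =
      algebraMap L (LaurentSeries L) b⁻¹ * (g' : LaurentSeries L) := by
    rw [hg''d, ← map_inv₀]
    rfl
  have hlead : (g'' : LaurentSeries L).leadingCoeff = 1 := by
    rw [hcoe, HahnSeries.leadingCoeff_mul, gdj_leadingCoeff_algebraMap, ← hb,
      inv_mul_cancel₀ hb0]
  have hg''0 : g'' ≠ 0 := by
    intro h0
    rw [h0] at hlead
    have : ((0 : laurentBaseChange L F₀) : LaurentSeries L) = 0 := rfl
    rw [this, HahnSeries.leadingCoeff_zero] at hlead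
    exact zero_ne_one hlead
  -- invariance
  have hfix : ∀ σ : L ≃ₐ[K] L, gdAct F₀ σ • g'' = g'' := by
    intro σ
    have hs : (gdAct F₀ σ • g'') ^ n = g'' ^ n := by
      rw [← smul_pow', ← hx₁, gdAct_gdIota]
    have hu : (((gdAct F₀ σ • g'') / g'' : laurentBaseChange L F₀) : LaurentSeries L) ^ n = 1 := by
      have h1 : ((gdAct F₀ σ • g'') / g'') ^ n = (1 : laurentBaseChange L F₀) := by
        rw [div_pow, hs, div_self (pow_ne_zero n hg''0)]
      have h2 := congrArg (fun y : laurentBaseChange L F₀ => (y : LaurentSeries L)) h1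
      exact h2
    obtain ⟨ζ, hζ⟩ := gdj_eq_algebraMap_of_pow_eq_one hn _ hu
    have hs' : ((gdAct F₀ σ • g'' : laurentBaseChange L F₀) : LaurentSeries L) =
        algebraMap L (LaurentSeries L) ζ * (g'' : LaurentSeries L) := by
      rw [← hζ]
      have h1 : (gdAct F₀ σ • g'') / g'' * g'' = gdAct F₀ σ • g'' := div_mul_cancel₀ _ hg''0
      have h2 := congrArg (fun y : laurentBaseChange L F₀ => (y : LaurentSeries L)) h1
      exact h2.symm
    have h1 : ((gdAct F₀ σ • g'' : laurentBaseChange L F₀) : LaurentSeries L).leadingCoeff = ζ := by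
      rw [hs', HahnSeries.leadingCoeff_mul, gdj_leadingCoeff_algebraMap, hlead, mul_one]
    have h2 : ((gdAct F₀ σ • g'' : laurentBaseChange L F₀) : LaurentSeries L).leadingCoeff = 1 := by
      rw [gdAct_leadingCoeff, hlead, map_one]
    have hζ1 : ζ = 1 := h1.symm.trans h2
    apply Subtype.ext
    rw [hs', hζ1, map_one, one_mul]
  -- descent
  obtain ⟨g₂, hg₂⟩ := gd_mem_range_of_finite_orbit (K := K) F₀ g'' (by
    have hsub : (Set.range fun σ : L ≃ₐ[K] L => gdAct F₀ σ • g'') ⊆ {g''} := by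
      rintro _ ⟨σ, rfl⟩
      exact hfix σ
    exact (Set.finite_singleton g'').subset hsub)
  have h3 : g₂ ^ n = x₁ := hιinj (by rw [map_pow, hg₂, hx₁])
  obtain ⟨α, hα⟩ := IsAlgClosed.exists_pow_nat_eq a hn
  refine ⟨algebraMap K (laurentBaseChange K F₀) α * g₂, ?_⟩
  rw [mul_pow, ← map_pow, hα, h3, hx₁d, ← mul_assoc, mul_inv_cancel₀, one_mul]
  exact (map_ne_zero _).2 ha0

end Top

end Fermat.Agent.G
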