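import Mathlib
import Fermat.Agent.G.Desc.Defs
import Fermat.Agent.S24.PlaceOfValuation

/-!
# Program G, package G/Desc, block R : restriction of places

`gd_place_restrict` : a place of `F' / L` restricts along `φ : F → F'` to the trivial valuation or
to a place of `F / K`, with a ramification index.
`gd_descent_map` : coefficientwise base change maps `W_n(F_K)` into `W_n(F_L)`.
-/

set_option autoImplicit false

noncomputable section

namespace Fermat.Agent.G

open ModularCurve AlgebraicCurve HahnSeries IntermediateField Fermat.Agent.S24 WithZero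

section Restrict

variable {K L F F' : Type*} [Field K] [Field L] [Field F] [Field F'] [Algebra K L] [Algebra K F]
  [Algebra L F']

theorem gdr_adicValuation_le_one (P' : Place L F') {y : F'} (hy : y ∈ P'.toValuationSubring) :
    P'.adicValuation y ≤ 1 := by
  have := P'.adicValuation_coe ⟨y, hy⟩
  rw [this]
  exact IsDedekindDomain.HeightOneSpectrum.intValuation_le_one _ _

/-- (R) a place of `F' / L` restricts along `φ : F → F'` to the trivial valuation or to a place
of `F / K`, with a ramification index. -/
theorem gd_place_restrict (φ : F →+* F')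
    (hφ : ∀ c : K, φ (algebraMap K F c) = algebraMap L F' (algebraMap K L c)) (P' : Place L F') :
    (∀ x : F, P'.ord (φ x) = 0) ∨
      ∃ (P : Place K F) (e : ℕ), 0 < e ∧ ∀ x : F, P'.ord (φ x) = (e : ℤ) * P.ord x := by
  set v : Valuation F ℤᵐ⁰ := P'.adicValuation.comap φ with hv
  have hvx : ∀ x : F, v x = P'.adicValuation (φ x) := fun _ => rfl
  have hk : ∀ a : K, v (algebraMap K F a) ≤ 1 := by
    intro a
    rw [hvx, hφ]
    exact gdr_adicValuation_le_one P' (P'.algebraMap_mem' _)
  by_cases hnt : ∃ x : F, x ≠ 0 ∧ v x ≠ 1
  · right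
    obtain ⟨m, hm, hmf⟩ := exists_ord_placeOfValuation (k := K) v hk hnt
    refine ⟨placeOfValuation (k := K) v hk hnt, m.toNat, by omega, fun x => ?_⟩
    rcases eq_or_ne x 0 with rfl | hx
    · simp
    · have h1 := hmf x hx
      rw [Int.toNat_of_nonneg hm.le, ← h1]
      rfl
  · left
    push Not at hnt
    intro x
    rcases eq_or_ne x 0 with rfl | hx
    · simp
    · have h1 : P'.adicValuation (φ x) = 1 := hnt x hx
      show -(log (P'.adicValuation (φ x))) = 0
      rw [h1, log_one, neg_zero]

end Restrict

section Top

variable {K L : Type*} [Field K] [Field L] [Algebra K L] [Algebra ℚ K] [Algebra ℚ L]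
variable (F₀ : IntermediateField ℚ (LaurentSeries ℚ))

/-- (T1) `ι` maps `W_n(F_K)` into `W_n(F_L)` (from `gd_place_restrict`). -/
theorem gd_descent_map (n : ℕ) (x : laurentBaseChange K F₀)
    (hx : GdDiv K (laurentBaseChange K F₀) n x) :
    GdDiv L (laurentBaseChange L F₀) n (gdIota K L F₀ x) := by
  intro P'
  rcases gd_place_restrict (K := K) (L := L) (gdIota K L F₀) (gdIota_algebraMap K L F₀) P' with
    h | ⟨P, e, _, h⟩
  · rw [h x]
    exact dvd_zero _
  · rw [h x]
    exact Dvd.dvd.mul_left (hx P) _

end Top

end Fermat.Agent.G
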