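import Mathlib
import Fermat.Agent.G.Desc.Defs
import Fermat.Agent.G.Desc.Restrict
import Fermat.Agent.G.Desc.Pinf
import Fermat.Agent.G.Desc.Bdd
import Fermat.Agent.G.Desc.OrderLe
import Fermat.Agent.G.Desc.CanonExists
import Fermat.Agent.G.Desc.CanonUnique
import Fermat.Agent.G.Desc.Equiv
import Fermat.Agent.G.Desc.BaseDeg
import Fermat.Agent.G.Desc.ExtendWire
import Fermat.Agent.G.Desc.Inj

/-!
# Program G, package G/Desc : SPEC hub

DESCENT `L → K` (`ℂ → Q̄`) of the Kummer groups `W_n(F) / F^{× n}` (`≅ Pic⁰(F)[n]`), in the cheap
shape of helper4 (msg 1496): canonical representative + finite `Aut(L/K)`-orbit.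

The stubs of the rows 501-511 live in `Spec/<Row>.lean` (one file per row, so that a prover can
import exactly the black boxes he needs); when a row is proved in `Desc/<File>.lean` the import
below is switched from the stub to the proof.  The assembly (`gd_canon_mem_range`,
`gd_descent_surj`) is in `Desc/Main.lean`, the instance `Q̄ → ℂ` in `Desc/Inst.lean`.
-/
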