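import Mathlib
import Fermat.Agent.G.Desc.Spec

/-!
# Program G, package G/Desc : assembly

`gd_canon_mem_range` (a canonical element of `W_n(F_L)` comes from `F_K` when
`W_n(F_L) / F_L^{× n}` is finite) and `gd_descent_surj` (surjectivity of the descent map on
classes), from the rows 501-511.
-/

set_option autoImplicit false

noncomputable section

namespace Fermat.Agent.G

open ModularCurve AlgebraicCurve HahnSeries IntermediateField Fermat.Agent.S24

section Rel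

variable {F : Type*} [Field F]

theorem gdRel_refl (n : ℕ) (x : F) : GdRel n x x :=
  ⟨1, one_ne_zero, by rw [one_pow, mul_one]⟩

theorem gdRel_symm {n : ℕ} {x y : F} (h : GdRel n x y) : GdRel n y x := by
  obtain ⟨g, hg, rfl⟩ := h
  exact ⟨g⁻¹, inv_ne_zero hg, by rw [mul_assoc, ← mul_pow, mul_inv_cancel₀ hg, one_pow, mul_one]⟩

theorem gdRel_trans {n : ℕ} {x y z : F} (h₁ : GdRel n x y) (h₂ : GdRel n y z) : GdRel n x z := by
  obtain ⟨g, hg, rfl⟩ := h₁
  obtain ⟨g', hg', rfl⟩ := h₂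
  exact ⟨g * g', mul_ne_zero hg hg', by rw [mul_pow, mul_assoc]⟩

theorem gdRel_ne_zero {n : ℕ} {x y : F} (h : GdRel n x y) (hx : x ≠ 0) : y ≠ 0 := by
  obtain ⟨g, hg, rfl⟩ := h
  exact mul_ne_zero hx (pow_ne_zero n hg)

theorem gdDiv_of_rel {K : Type*} [Field K] [Algebra K F] {n : ℕ} {x y : F} (h : GdRel n x y)
    (hd : GdDiv K F n x) : GdDiv K F n y := by
  obtain ⟨g, hg, rfl⟩ := h
  intro P
  rcases eq_or_ne x 0 with rfl | hx
  · rw [zero_mul, Place.ord_zero]; exact dvd_zero _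
  rw [P.ord_mul hx (pow_ne_zero n hg), ← zpow_natCast, P.ord_zpow]
  exact dvd_add (hd P) (dvd_mul_right _ _)

end Rel

section Top

variable {K L : Type*} [Field K] [Field L] [Algebra K L] [Algebra ℚ K] [Algebra ℚ L]
  [IsScalarTower ℚ K L] [IsAlgClosed K] [IsAlgClosed L] [CharZero K] [CharZero L]
variable (F₀ : IntermediateField ℚ (LaurentSeries ℚ)) (hj : jq ∈ F₀)

/-- (T3a) a canonical element of `W_n(F_L)` comes from `F_K`, if `W_n(F_L) / F_L^{× n}` is
finite. -/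
theorem gd_canon_mem_range (n : ℕ) (hn : 0 < n)
    (hfin : ∃ S : Finset (laurentBaseChange L F₀), ∀ x' : laurentBaseChange L F₀, x' ≠ 0 →
      GdDiv L (laurentBaseChange L F₀) n x' → ∃ s ∈ S, GdRel n s x')
    (x' : laurentBaseChange L F₀) (hdiv : GdDiv L (laurentBaseChange L F₀) n x')
    (hcan : GdCanon (laurentBaseChange L F₀) (gdJ L F₀ hj) n x') :
    x' ∈ Set.range (gdIota K L F₀) := by
  classical
  apply gd_mem_range_of_finite_orbit (K := K) F₀ x'
  obtain ⟨S, hS⟩ := hfin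
  have hcanσ : ∀ σ : L ≃ₐ[K] L,
      GdCanon (laurentBaseChange L F₀) (gdJ L F₀ hj) n (gdAct F₀ σ • x') := fun σ =>
    gd_canon_smul _ _ n (gdAct F₀ σ)
      (by rw [← gdIota_gdJ K L F₀ hj]; exact gdAct_gdIota F₀ σ _)
      (gdAct_order F₀ σ) (gdAct_leadingCoeff F₀ σ) hcan
  have hs : ∀ σ : L ≃ₐ[K] L, ∃ s ∈ S, GdRel n s (gdAct F₀ σ • x') := fun σ =>
    hS _ (hcanσ σ).ne_zero (gdAct_div F₀ σ n hdiv)
  choose f hfS hfrel using hs
  let c : laurentBaseChange L F₀ → laurentBaseChange L F₀ := fun s =>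
    if h : ∃ y, GdRel n s y ∧ GdCanon (laurentBaseChange L F₀) (gdJ L F₀ hj) n y
    then h.choose else 0
  refine (S.finite_toSet.image c).subset ?_
  rintro _ ⟨σ, rfl⟩
  refine ⟨f σ, hfS σ, ?_⟩
  have hex : ∃ y, GdRel n (f σ) y ∧ GdCanon (laurentBaseChange L F₀) (gdJ L F₀ hj) n y :=
    ⟨_, hfrel σ, hcanσ σ⟩
  show c (f σ) = _
  simp only [c, dif_pos hex]
  obtain ⟨h1, h2⟩ := hex.choose_spec
  exact gd_canon_unique _ _ n hn h2 (hcanσ σ) (gdRel_trans (gdRel_symm h1) (hfrel σ))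

/-- (T3) surjectivity of `W_n(F_K) / F_K^{× n} → W_n(F_L) / F_L^{× n}`, if the target is
finite. -/
theorem gd_descent_surj (hK : IsSepGen K (gdJ K F₀ hj)) (n : ℕ) (hn : 0 < n)
    (hfin : ∃ S : Finset (laurentBaseChange L F₀), ∀ x' : laurentBaseChange L F₀, x' ≠ 0 →
      GdDiv L (laurentBaseChange L F₀) n x' → ∃ s ∈ S, GdRel n s x')
    (x' : laurentBaseChange L F₀) (hx' : x' ≠ 0)
    (hdiv : GdDiv L (laurentBaseChange L F₀) n x') :
    ∃ x : laurentBaseChange K F₀, x ≠ 0 ∧ GdDiv K (laurentBaseChange K F₀) n x ∧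
      GdRel n (gdIota K L F₀ x) x' := by
  have hL : IsSepGen L (gdJ L F₀ hj) := gd_isSepGen F₀ hj hK
  obtain ⟨y', hrel, hcan⟩ :=
    gd_canon_exists _ (gdJ L F₀ hj) hL (gd_order_gdJ F₀ hj) n hn x' hx'
  have hdivy : GdDiv L (laurentBaseChange L F₀) n y' := gdDiv_of_rel hrel hdiv
  obtain ⟨y, rfl⟩ := gd_canon_mem_range (K := K) F₀ hj n hn hfin y' hdivy hcan
  refine ⟨y, ?_, ?_, gdRel_symm hrel⟩
  · intro h
    apply hcan.ne_zero
    rw [h, map_zero]
  · intro P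
    obtain ⟨P', hP'⟩ := gd_place_extend (L := L) F₀ hj hK P
    rw [← hP']
    exact hdivy P'

end Top

end Fermat.Agent.G
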