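import Mathlib
import Fermat.Agent.G.Desc.Defs

/-!
# Program G, package G/Desc : the Kummer model `W_n(F) / F^{× n} ≅ Pic⁰(F)[n]` (K0)

Generic: `K` algebraically closed of characteristic zero, `F / K` a function field with a
separating generator `t` (S24 `IsSepGen`).  `GdkRep n f x` says that `x ∈ Pic⁰(F)` is the class of
the divisor `(1/n) div f`.
-/

set_option autoImplicit false

noncomputable section

namespace Fermat.Agent.G

open AlgebraicCurve Fermat.Agent.S24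

variable {K F : Type*} [Field K] [Field F] [Algebra K F]

/-- `x` is the class of `(1/n) div f`. -/
def GdkRep (n : ℕ) (f : F) (x : Pic0 K F) : Prop :=
  ∃ D : Divisor.degZero (K := K) (F := F), x = Pic0.mk D ∧
    ∀ P : Place K F, (n : ℤ) * (D : Divisor K F) P = P.ord f

section Basic

theorem gdkRep_unique {n : ℕ} (hn : 0 < n) {f : F} {x y : Pic0 K F} (hx : GdkRep (K := K) n f x)
    (hy : GdkRep (K := K) n f y) : x = y := by
  obtain ⟨D, rfl, hD⟩ := hx
  obtain ⟨E, rfl, hE⟩ := hy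
  congr 1
  apply Subtype.ext
  ext P
  have h := (hD P).trans (hE P).symm
  have hn' : (n : ℤ) ≠ 0 := by exact_mod_cast hn.ne'
  exact mul_left_cancel₀ hn' h

theorem gdkRep_mul {n : ℕ} {f g : F} (hf : f ≠ 0) (hg : g ≠ 0) {x y : Pic0 K F}
    (hx : GdkRep (K := K) n f x) (hy : GdkRep (K := K) n g y) :
    GdkRep (K := K) n (f * g) (x + y) := by
  obtain ⟨D, rfl, hD⟩ := hx
  obtain ⟨E, rfl, hE⟩ := hy
  refine ⟨D + E, (Pic0.mk_add D E).symm, fun P => ?_⟩
  rw [P.ord_mul hf hg, ← hD P, ← hE P]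
  show (n : ℤ) * ((D : Divisor K F) + (E : Divisor K F)) P = _
  rw [Finsupp.add_apply, mul_add]

theorem gdkRep_one (n : ℕ) : GdkRep (K := K) n (1 : F) 0 :=
  ⟨0, rfl, fun P => by simp⟩

/-- the class of `(1/n) div (g ^ n) = div g` is zero. -/
theorem gdkRep_pow [HasPrincipalDivisors K F] (n : ℕ) {g : F} (hg : g ≠ 0) :
    GdkRep (K := K) n (g ^ n) 0 := by
  obtain ⟨D, hD, hdeg⟩ := HasPrincipalDivisors.exists_divisor (K := K) g hg
  refine ⟨⟨D, hdeg⟩, ?_, fun P => ?_⟩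
  · symm
    refine (QuotientAddGroup.eq_zero_iff _).mpr ?_
    rw [AddSubgroup.mem_addSubgroupOf]
    exact ⟨g, hg, hD⟩
  · show (n : ℤ) * D P = _
    rw [hD P, ← zpow_natCast, P.ord_zpow]

theorem gdkRep_of_rel [HasPrincipalDivisors K F] {n : ℕ} {f f' : F} (hf : f ≠ 0)
    (h : GdRel n f f') {x : Pic0 K F} (hx : GdkRep (K := K) n f x) :
    GdkRep (K := K) n f' x := by
  obtain ⟨g, hg, rfl⟩ := h
  have := gdkRep_mul hf (pow_ne_zero n hg) hx (gdkRep_pow (K := K) n hg)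
  rwa [add_zero] at this

theorem gdkRep_mem_torsion {n : ℕ} {f : F} (hf : f ≠ 0) {x : Pic0 K F}
    (hx : GdkRep (K := K) n f x) : x ∈ Pic0.torsion K F n := by
  obtain ⟨D, rfl, hD⟩ := hx
  rw [Pic0.mem_torsion]
  show (n : ℤ) • Pic0.mk D = 0
  have h1 : (n : ℤ) • Pic0.mk D = Pic0.mk ((n : ℤ) • D) := rfl
  rw [h1]
  refine (QuotientAddGroup.eq_zero_iff _).mpr ?_
  rw [AddSubgroup.mem_addSubgroupOf]
  refine ⟨f, hf, fun P => ?_⟩
  rw [← hD P]
  show ((n : ℤ) • (D : Divisor K F)) P = _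
  rw [Finsupp.smul_apply, smul_eq_mul]

theorem gdkRep_div {n : ℕ} {f : F} {x : Pic0 K F} (hx : GdkRep (K := K) n f x) :
    GdDiv K F n f := by
  obtain ⟨D, -, hD⟩ := hx
  exact fun P => ⟨_, (hD P).symm⟩

end Basic

section SepGen

variable [IsAlgClosed K] [CharZero K] {t : F}

/-- a function without zeros and poles is constant. -/
theorem gdk_const_of_ord_eq_zero (ht : IsSepGen K t) {f : F}
    (h : ∀ P : Place K F, P.ord f = 0) : ∃ c : K, f = algebraMap K F c := by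
  by_cases halg : IsAlgebraic K f
  · have hirr := minpoly.irreducible halg.isIntegral
    have hdeg := IsAlgClosed.degree_eq_one_of_irreducible K hirr
    obtain ⟨c, hc⟩ := minpoly.mem_range_of_degree_eq_one K f hdeg
    exact ⟨c, hc.symm⟩
  · exfalso
    obtain ⟨v, hv⟩ := (ht.of_transcendental halg).exists_ord_pos
    rw [h v] at hv
    exact lt_irrefl _ hv

omit [IsAlgClosed K] in
/-- existence of the class of `(1/n) div f` for `f ∈ W_n(F)`. -/
theorem gdkRep_exists (ht : IsSepGen K t) {n : ℕ} (hn : 0 < n) {f : F} (hf : f ≠ 0)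
    (hd : GdDiv K F n f) : ∃ x : Pic0 K F, GdkRep (K := K) n f x := by
  classical
  have hn' : (n : ℤ) ≠ 0 := by exact_mod_cast hn.ne'
  have hfin : (Function.support fun v : Place K F => v.ord f / (n : ℤ)).Finite := by
    refine (ht.finite_ord_ne_zero hf).subset fun v hv => ?_
    simp only [Function.mem_support, ne_eq] at hv
    intro h0
    apply hv
    show v.ord f / (n : ℤ) = 0
    rw [h0, Int.zero_ediv]
  let D : Divisor K F := Finsupp.ofSupportFinite (fun v => v.ord f / (n : ℤ)) hfin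
  have hD : ∀ P : Place K F, (n : ℤ) * D P = P.ord f := fun P =>
    Int.mul_ediv_cancel' (hd P)
  have hdeg : Divisor.degree D = 0 := by
    have h1 : Divisor.degree ((n : ℤ) • D) = 0 :=
      ht.degree_eq_zero_of_forall_ord hf ((n : ℤ) • D) fun v => by
        rw [Finsupp.smul_apply, smul_eq_mul, hD v]
    rw [map_zsmul, smul_eq_mul] at h1
    exact (mul_eq_zero.mp h1).resolve_left hn'
  exact ⟨Pic0.mk ⟨D, hdeg⟩, ⟨D, hdeg⟩, rfl, hD⟩

/-- injectivity of `W_n(F) / F^{× n} → Pic⁰(F)[n]`. -/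
theorem gdkRep_zero (ht : IsSepGen K t) {n : ℕ} (hn : 0 < n) {f : F} (hf : f ≠ 0)
    (h : GdkRep (K := K) n f 0) : ∃ g : F, f = g ^ n := by
  obtain ⟨D, hD0, hD⟩ := h
  have hprin : (D : Divisor K F) ∈ Divisor.principal (K := K) (F := F) := by
    have := (QuotientAddGroup.eq_zero_iff (D : Divisor.degZero (K := K) (F := F))).mp hD0.symm
    rwa [AddSubgroup.mem_addSubgroupOf] at this
  obtain ⟨g, hg, hgD⟩ := hprin
  have hord : ∀ P : Place K F, P.ord (f * (g ^ n)⁻¹) = 0 := fun P => by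
    rw [P.ord_mul hf (inv_ne_zero (pow_ne_zero n hg)), P.ord_inv, ← zpow_natCast, P.ord_zpow,
      ← hgD P, hD P, sub_eq_zero.mp (by ring : P.ord f + -P.ord f - 0 = 0)]
  obtain ⟨c, hc⟩ := gdk_const_of_ord_eq_zero ht hord
  obtain ⟨b, hb⟩ := IsAlgClosed.exists_pow_nat_eq c hn
  refine ⟨algebraMap K F b * g, ?_⟩
  rw [mul_pow, ← map_pow, hb, ← hc, mul_assoc, inv_mul_cancel₀ (pow_ne_zero n hg), mul_one]

omit [IsAlgClosed K] [CharZero K] in
/-- surjectivity of `W_n(F) / F^{× n} → Pic⁰(F)[n]`. -/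
theorem gdkRep_surj {n : ℕ} {x : Pic0 K F} (hx : x ∈ Pic0.torsion K F n) :
    ∃ f : F, f ≠ 0 ∧ GdkRep (K := K) n f x := by
  obtain ⟨D, rfl⟩ := Pic0.mk_surjective x
  rw [Pic0.mem_torsion] at hx
  have h1 : (n : ℤ) • Pic0.mk D = Pic0.mk ((n : ℤ) • D) := rfl
  rw [h1] at hx
  have := (QuotientAddGroup.eq_zero_iff ((n : ℤ) • D)).mp hx
  rw [AddSubgroup.mem_addSubgroupOf] at this
  obtain ⟨f, hf, hfD⟩ := this
  refine ⟨f, hf, D, rfl, fun P => ?_⟩
  rw [← hfD P]
  show _ = ((n : ℤ) • (D : Divisor K F)) P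
  rw [Finsupp.smul_apply, smul_eq_mul]

end SepGen

end Fermat.Agent.G
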