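import Mathlib
import Fermat.Agent.G.Desc.Main
import Fermat.Agent.G.Desc.Kummer

/-!
# Program G, package G/Desc : from a family of Kummer generators over `L` to `Pic⁰(F_K)[n]`

`gd_theta` : a "homomorphism up to `n`-th powers" `X : A → W_n(F_L)`, injective modulo `n`-th
powers, descends (if `W_n(F_L) / F_L^{× n}` is finite) to an injective homomorphism
`Θ : A →+ Pic⁰(F_K)` with values in the `n`-torsion, characterised by:
`Θ a` is the class of `(1/n) div f` for any `f ∈ F_K` with `ι f ∈ X a · F_L^{× n}`.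

`gd_theta_equivariant` : transport of an operator (Hecke) through this characterisation.
-/

set_option autoImplicit false

noncomputable section

namespace Fermat.Agent.G

open ModularCurve AlgebraicCurve HahnSeries IntermediateField Fermat.Agent.S24

variable {K L : Type*} [Field K] [Field L] [Algebra K L] [Algebra ℚ K] [Algebra ℚ L]
  [IsScalarTower ℚ K L] [IsAlgClosed K] [IsAlgClosed L] [CharZero K] [CharZero L]
variable (F₀ : IntermediateField ℚ (LaurentSeries ℚ)) (hj : jq ∈ F₀)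

/-- classes modulo `n`-th powers can be compared after base change. -/
theorem gd_rel_of_iota_rel (n : ℕ) (hn : 0 < n) {f f' : laurentBaseChange K F₀} (hf : f ≠ 0)
    (hf' : f' ≠ 0) (h : GdRel n (gdIota K L F₀ f) (gdIota K L F₀ f')) : GdRel n f f' := by
  obtain ⟨g', hg', hg⟩ := h
  have hιf : gdIota K L F₀ f ≠ 0 := (map_ne_zero_iff _ (gdIota K L F₀).injective).mpr hf
  have h1 : gdIota K L F₀ (f' * f⁻¹) = g' ^ n := by
    rw [map_mul, map_inv₀, hg, mul_comm, ← mul_assoc, inv_mul_cancel₀ hιf, one_mul]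
  obtain ⟨g, hg2⟩ := gd_descent_inj F₀ n hn (f' * f⁻¹) (mul_ne_zero hf' (inv_ne_zero hf)) g' h1
  have hg0 : g ≠ 0 := by
    rintro rfl
    rw [zero_pow hn.ne'] at hg2
    exact mul_ne_zero hf' (inv_ne_zero hf) hg2
  refine ⟨g, hg0, ?_⟩
  rw [← hg2, mul_comm f' f⁻¹, ← mul_assoc, mul_inv_cancel₀ hf, one_mul]

omit [IsScalarTower ℚ K L] [IsAlgClosed K] [IsAlgClosed L] [CharZero K] [CharZero L] in
theorem gdRel_iota (n : ℕ) {f f' : laurentBaseChange K F₀} (h : GdRel n f f') :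
    GdRel n (gdIota K L F₀ f) (gdIota K L F₀ f') := by
  obtain ⟨g, hg, rfl⟩ := h
  exact ⟨gdIota K L F₀ g, (map_ne_zero_iff _ (gdIota K L F₀).injective).mpr hg, by
    rw [map_mul, map_pow]⟩

/-- **descent of a family of Kummer generators** to `Pic⁰(F_K)[n]`. -/
theorem gd_theta {A : Type*} [AddCommGroup A] (hK : IsSepGen K (gdJ K F₀ hj)) (n : ℕ)
    (hn : 0 < n)
    (hfin : ∃ S : Finset (laurentBaseChange L F₀), ∀ x' : laurentBaseChange L F₀, x' ≠ 0 →
      GdDiv L (laurentBaseChange L F₀) n x' → ∃ s ∈ S, GdRel n s x')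
    (X : A → laurentBaseChange L F₀) (hX0 : ∀ a, X a ≠ 0)
    (hXdiv : ∀ a, GdDiv L (laurentBaseChange L F₀) n (X a))
    (hXadd : ∀ a b, GdRel n (X a * X b) (X (a + b)))
    (hXinj : ∀ a, GdRel n 1 (X a) → a = 0) :
    ∃ Θ : A →+ Pic0 K (laurentBaseChange K F₀), Function.Injective Θ ∧
      (∀ a, Θ a ∈ Pic0.torsion K (laurentBaseChange K F₀) n) ∧
      ∀ a, ∃ f : laurentBaseChange K F₀, f ≠ 0 ∧ GdRel n (gdIota K L F₀ f) (X a) ∧
        GdkRep (K := K) n f (Θ a) := by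
  haveI : HasPrincipalDivisors K (laurentBaseChange K F₀) := hK.hasPrincipalDivisors
  have hex : ∀ a, ∃ f : laurentBaseChange K F₀, f ≠ 0 ∧
      GdDiv K (laurentBaseChange K F₀) n f ∧ GdRel n (gdIota K L F₀ f) (X a) := fun a =>
    gd_descent_surj F₀ hj hK n hn hfin (X a) (hX0 a) (hXdiv a)
  choose f hf0 hfdiv hfrel using hex
  have hex2 : ∀ a, ∃ x : Pic0 K (laurentBaseChange K F₀), GdkRep (K := K) n (f a) x := fun a =>
    gdkRep_exists hK hn (hf0 a) (hfdiv a)
  choose θ hθ using hex2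
  have hadd : ∀ a b, θ (a + b) = θ a + θ b := by
    intro a b
    have h1 : GdRel n (gdIota K L F₀ (f a * f b)) (gdIota K L F₀ (f (a + b))) := by
      rw [map_mul]
      obtain ⟨ga, hga, ha⟩ := hfrel a
      obtain ⟨gb, hgb, hb⟩ := hfrel b
      have h2 : GdRel n (gdIota K L F₀ (f a) * gdIota K L F₀ (f b)) (X a * X b) :=
        ⟨ga * gb, mul_ne_zero hga hgb, by rw [ha, hb, mul_pow]; ring⟩
      exact gdRel_trans (gdRel_trans h2 (hXadd a b)) (gdRel_symm (hfrel (a + b)))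
    have h3 : GdRel n (f a * f b) (f (a + b)) :=
      gd_rel_of_iota_rel F₀ n hn (mul_ne_zero (hf0 a) (hf0 b)) (hf0 (a + b)) h1
    exact gdkRep_unique hn (hθ (a + b))
      (gdkRep_of_rel (mul_ne_zero (hf0 a) (hf0 b)) h3 (gdkRep_mul (hf0 a) (hf0 b) (hθ a) (hθ b)))
  have hzero : θ 0 = 0 := by
    have := hadd 0 0
    rw [add_zero] at this
    exact left_eq_add.mp this
  let Θ : A →+ Pic0 K (laurentBaseChange K F₀) :=
    { toFun := θ, map_zero' := hzero, map_add' := hadd }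
  refine ⟨Θ, ?_, fun a => gdkRep_mem_torsion (hf0 a) (hθ a), fun a =>
    ⟨f a, hf0 a, hfrel a, hθ a⟩⟩
  rw [injective_iff_map_eq_zero]
  intro a ha
  have h0 : GdkRep (K := K) n (f a) 0 := by
    have := hθ a
    rwa [show θ a = 0 from ha] at this
  obtain ⟨g, hg⟩ := gdkRep_zero hK hn (hf0 a) h0
  have hg0 : g ≠ 0 := by
    rintro rfl
    rw [zero_pow hn.ne'] at hg
    exact hf0 a hg
  apply hXinj a
  have h1 : GdRel n (1 : laurentBaseChange L F₀) (gdIota K L F₀ (f a)) :=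
    ⟨gdIota K L F₀ g, (map_ne_zero_iff _ (gdIota K L F₀).injective).mpr hg0, by
      rw [hg, map_pow, one_mul]⟩
  exact gdRel_trans h1 (hfrel a)

/-- **transport of an operator**: if `T` on `Pic⁰(F_K)` is induced by `H` on functions, and `H`
maps (after base change) the class of `X a` to the class of `X a'`, then `T (Θ a) = Θ a'`. -/
theorem gd_theta_equivariant {A : Type*} (hK : IsSepGen K (gdJ K F₀ hj)) (n : ℕ) (hn : 0 < n)
    (X : A → laurentBaseChange L F₀) (Θ : A → Pic0 K (laurentBaseChange K F₀))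
    (hΘ : ∀ a, ∃ f : laurentBaseChange K F₀, f ≠ 0 ∧ GdRel n (gdIota K L F₀ f) (X a) ∧
      GdkRep (K := K) n f (Θ a))
    (T : Pic0 K (laurentBaseChange K F₀) → Pic0 K (laurentBaseChange K F₀))
    (H : laurentBaseChange K F₀ → laurentBaseChange K F₀)
    (hTH : ∀ (f : laurentBaseChange K F₀) (x : Pic0 K (laurentBaseChange K F₀)), f ≠ 0 →
      GdkRep (K := K) n f x → H f ≠ 0 ∧ GdkRep (K := K) n (H f) (T x))
    (a a' : A)
    (hH : ∀ f : laurentBaseChange K F₀, f ≠ 0 → GdRel n (gdIota K L F₀ f) (X a) →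
      GdRel n (gdIota K L F₀ (H f)) (X a')) :
    T (Θ a) = Θ a' := by
  haveI : HasPrincipalDivisors K (laurentBaseChange K F₀) := hK.hasPrincipalDivisors
  obtain ⟨f, hf0, hfrel, hfrep⟩ := hΘ a
  obtain ⟨f', hf'0, hf'rel, hf'rep⟩ := hΘ a'
  obtain ⟨hHf0, hHrep⟩ := hTH f (Θ a) hf0 hfrep
  have h1 : GdRel n (gdIota K L F₀ (H f)) (gdIota K L F₀ f') :=
    gdRel_trans (hH f hf0 hfrel) (gdRel_symm hf'rel)
  have h2 : GdRel n (H f) f' := gd_rel_of_iota_rel F₀ n hn hHf0 hf'0 h1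
  exact gdkRep_unique hn (gdkRep_of_rel hHf0 h2 hHrep) hf'rep

end Fermat.Agent.G
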