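import Mathlib
import Fermat.Agent.G.Desc.Main
import Fermat.Agent.G.Desc.Theta
import Fermat.Agent.S24.ADefs
import Fermat.Agent.S24.Degree

/-!
# Program G, package G/Desc : the instance `K = Q̄`, `L = ℂ`, `F₀ = modularFunctionFieldFull N`

INTERFACE of the package for G/Kum, G/Asm, G/Top: `F_ℂ(N) := gdqFC N`, the base change
`gdqIota N : modularFunctionFieldBar N →+* gdqFC N` (`= coeffMap iotaBar` on Laurent series) and
the three descent statements `gdq_descent_map / _inj / _surj`.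
-/

set_option autoImplicit false

noncomputable section

namespace Fermat.Agent.G

open ModularCurve AlgebraicCurve HahnSeries Fermat.Agent.S24

variable (N : ℕ) [NeZero N]

/-- the function field of `X₀(N)` over `ℂ`, inside `ℂ((q))`. -/
abbrev gdqFC : IntermediateField ℂ (LaurentSeries ℂ) :=
  laurentBaseChange ℂ (modularFunctionFieldFull N)

/-- base change `F_Q̄(N) → F_ℂ(N)` along `iotaBar`. -/
def gdqIota : modularFunctionFieldBar N →+* gdqFC N :=
  letI : Algebra QBar ℂ := iotaBar.toAlgebra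
  gdIota QBar ℂ (modularFunctionFieldFull N)

@[simp]
theorem coe_gdqIota (x : modularFunctionFieldBar N) :
    ((gdqIota N x : gdqFC N) : LaurentSeries ℂ) =
      coeffMap iotaBar (x : LaurentSeries QBar) := rfl

theorem gdq_jq_mem : jq ∈ modularFunctionFieldFull N := by
  have h := jqd_mem_full (d := 1) N (one_dvd N)
  rwa [qExpand_one_apply] at h

theorem gdq_isSepGen : IsSepGen QBar (gdJ QBar (modularFunctionFieldFull N) (gdq_jq_mem N)) :=
  isSepGen_jBar N

/-- (T1) `ι` maps `W_n(F_Q̄)` into `W_n(F_ℂ)`. -/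
theorem gdq_descent_map (n : ℕ) (x : modularFunctionFieldBar N)
    (hx : GdDiv QBar (modularFunctionFieldBar N) n x) :
    GdDiv ℂ (gdqFC N) n (gdqIota N x) := by
  letI : Algebra QBar ℂ := iotaBar.toAlgebra
  exact gd_descent_map (modularFunctionFieldFull N) n x hx

/-- (T2) injectivity on classes modulo `n`-th powers. -/
theorem gdq_descent_inj (n : ℕ) (hn : 0 < n) (x : modularFunctionFieldBar N) (hx : x ≠ 0)
    (g' : gdqFC N) (h : gdqIota N x = g' ^ n) :
    ∃ g : modularFunctionFieldBar N, x = g ^ n := by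
  letI : Algebra QBar ℂ := iotaBar.toAlgebra
  haveI : IsScalarTower ℚ QBar ℂ := IsScalarTower.of_algebraMap_eq fun r => by
    simp
  exact gd_descent_inj (modularFunctionFieldFull N) n hn x hx g' h

/-- (T3) surjectivity on classes, given the finiteness of `W_n(F_ℂ) / F_ℂ^{× n}`. -/
theorem gdq_descent_surj (n : ℕ) (hn : 0 < n)
    (hfin : ∃ S : Finset (gdqFC N), ∀ x' : gdqFC N, x' ≠ 0 →
      GdDiv ℂ (gdqFC N) n x' → ∃ s ∈ S, GdRel n s x')
    (x' : gdqFC N) (hx' : x' ≠ 0) (hdiv : GdDiv ℂ (gdqFC N) n x') :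
    ∃ x : modularFunctionFieldBar N, x ≠ 0 ∧ GdDiv QBar (modularFunctionFieldBar N) n x ∧
      GdRel n (gdqIota N x) x' := by
  letI : Algebra QBar ℂ := iotaBar.toAlgebra
  haveI : IsScalarTower ℚ QBar ℂ := IsScalarTower.of_algebraMap_eq fun r => by
    simp
  exact gd_descent_surj (modularFunctionFieldFull N) (gdq_jq_mem N) (gdq_isSepGen N) n hn hfin
    x' hx' hdiv

/-- (Θ) a family of Kummer generators over `ℂ`, additive and injective modulo `n`-th powers,
descends to an injective homomorphism into `J₀(N)(Q̄)[n]`. -/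
theorem gdq_theta {A : Type*} [AddCommGroup A] (n : ℕ) (hn : 0 < n)
    (hfin : ∃ S : Finset (gdqFC N), ∀ x' : gdqFC N, x' ≠ 0 →
      GdDiv ℂ (gdqFC N) n x' → ∃ s ∈ S, GdRel n s x')
    (X : A → gdqFC N) (hX0 : ∀ a, X a ≠ 0) (hXdiv : ∀ a, GdDiv ℂ (gdqFC N) n (X a))
    (hXadd : ∀ a b, GdRel n (X a * X b) (X (a + b)))
    (hXinj : ∀ a, GdRel n 1 (X a) → a = 0) :
    ∃ Θ : A →+ JZero N, Function.Injective Θ ∧
      (∀ a, Θ a ∈ Pic0.torsion QBar (modularFunctionFieldBar N) n) ∧
      ∀ a, ∃ f : modularFunctionFieldBar N, f ≠ 0 ∧ GdRel n (gdqIota N f) (X a) ∧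
        GdkRep (K := QBar) n f (Θ a) := by
  letI : Algebra QBar ℂ := iotaBar.toAlgebra
  haveI : IsScalarTower ℚ QBar ℂ := IsScalarTower.of_algebraMap_eq fun r => by
    simp
  exact gd_theta (modularFunctionFieldFull N) (gdq_jq_mem N) (gdq_isSepGen N) n hn hfin X hX0
    hXdiv hXadd hXinj

/-- (Θ-equivariance) transport of an operator `T` on `J₀(N)` induced by `H` on functions. -/
theorem gdq_theta_equivariant {A : Type*} (n : ℕ) (hn : 0 < n)
    (X : A → gdqFC N) (Θ : A → JZero N)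
    (hΘ : ∀ a, ∃ f : modularFunctionFieldBar N, f ≠ 0 ∧ GdRel n (gdqIota N f) (X a) ∧
      GdkRep (K := QBar) n f (Θ a))
    (T : JZero N → JZero N) (H : modularFunctionFieldBar N → modularFunctionFieldBar N)
    (hTH : ∀ (f : modularFunctionFieldBar N) (x : JZero N), f ≠ 0 →
      GdkRep (K := QBar) n f x → H f ≠ 0 ∧ GdkRep (K := QBar) n (H f) (T x))
    (a a' : A)
    (hH : ∀ f : modularFunctionFieldBar N, f ≠ 0 → GdRel n (gdqIota N f) (X a) →
      GdRel n (gdqIota N (H f)) (X a')) :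
    T (Θ a) = Θ a' := by
  letI : Algebra QBar ℂ := iotaBar.toAlgebra
  haveI : IsScalarTower ℚ QBar ℂ := IsScalarTower.of_algebraMap_eq fun r => by
    simp
  exact gd_theta_equivariant (modularFunctionFieldFull N) (gdq_jq_mem N) (gdq_isSepGen N) n hn
    X Θ hΘ T H hTH a a' hH

end Fermat.Agent.G
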