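import Mathlib
import Fermat.Agent.G.Desc.Inst
import Fermat.Agent.G.FF.Main
import Fermat.Agent.G.Asm.Defs

/-!
# Program G : the multiplier map `Θ` for G/Asm, from the G/Kum deliverables (on the `ℂ` side)
through G/Desc (descent to `Q̄`) and G/FF (Hecke operators on functions).

`gdq_theta_asm` : given a family `X χ ∈ W_n(F_ℂ)`, `χ ∈ Hom_pe(Γ₀(N), ℤ/n)`, additive and injective
modulo `n`-th powers, with `W_n(F_ℂ) / F_ℂ^{× n}` finite, and compatible with the Hecke operators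
on functions, there is an injective Hecke-equivariant `Θ : Hom_pe(Γ₀(N), ℤ/n) →+ J₀(N)(Q̄)[n]`.
For `n = p` this is `gasm_theta` of `G/Asm/Spec.lean`.
-/

set_option autoImplicit false

noncomputable section

namespace Fermat.Agent.G

open CongruenceSubgroup ModularCurve AlgebraicCurve HahnSeries Fermat.Agent.S24
  Fermat.Agent.S16LB

/-- **Θ from the Kummer data over `ℂ`.** -/
theorem gdq_theta_asm (N : ℕ) [NeZero N] (n : ℕ) (hn : 0 < n)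
    (X : gasmPEHoms N (ZMod n) → gdqFC N)
    (hX0 : ∀ χ, X χ ≠ 0)
    (hXdiv : ∀ χ, GdDiv ℂ (gdqFC N) n (X χ))
    (hXadd : ∀ χ χ', GdRel n (X χ * X χ') (X (χ + χ')))
    (hXinj : ∀ χ, GdRel n 1 (X χ) → χ = 0)
    (hfin : ∃ S : Finset (gdqFC N), ∀ x' : gdqFC N, x' ≠ 0 →
      GdDiv ℂ (gdqFC N) n x' → ∃ s ∈ S, GdRel n s x')
    (hHecke : ∀ (ℓ : ℕ) [Fact ℓ.Prime] (hℓN : ¬ ℓ ∣ N) (_ : ¬ ℓ ∣ n)
      (χ χ' : gasmPEHoms N (ZMod n)),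
      (χ' : s16lbAb N →+ ZMod n) = (χ : s16lbAb N →+ ZMod n).comp (gasmTr N ℓ hℓN) →
      ∀ f : modularFunctionFieldBar N, f ≠ 0 → GdRel n (gdqIota N f) (X χ) →
        haveI : NeZero ℓ := ⟨(Fact.out : ℓ.Prime).ne_zero⟩
        GdRel n (gdqIota N (gHeckeFun N ℓ f)) (X χ')) :
    ∃ Θ : gasmPEHoms N (ZMod n) →+ JZero N, Function.Injective Θ ∧
      (∀ χ, Θ χ ∈ Pic0.torsion QBar (modularFunctionFieldBar N) n) ∧
      ∀ (ℓ : ℕ) [Fact ℓ.Prime] (hℓN : ¬ ℓ ∣ N) (_ : ¬ ℓ ∣ n)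
        (χ χ' : gasmPEHoms N (ZMod n)),
        (χ' : s16lbAb N →+ ZMod n) = (χ : s16lbAb N →+ ZMod n).comp (gasmTr N ℓ hℓN) →
          Θ χ' = heckeOperatorBar N ⟨ℓ, Fact.out⟩ (Θ χ) := by
  obtain ⟨Θ, hinj, htor, hrep⟩ := gdq_theta N n hn hfin X hX0 hXdiv hXadd hXinj
  refine ⟨Θ, hinj, htor, ?_⟩
  intro ℓ _ hℓN hℓn χ χ' hχ
  haveI : NeZero ℓ := ⟨(Fact.out : ℓ.Prime).ne_zero⟩
  symm
  refine gdq_theta_equivariant N n hn X (fun a => Θ a) hrep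
    (fun x => heckeOperatorBar N ⟨ℓ, Fact.out⟩ x) (fun f => gHeckeFun N ℓ f) ?_ χ χ'
    (fun f hf hrel => hHecke ℓ hℓN hℓn χ χ' hχ f hf hrel)
  intro f x hf hx
  obtain ⟨D, rfl, hD⟩ := hx
  obtain ⟨E, hE1, hE2, hE3⟩ := gff_hecke_class N ℓ Fact.out D n f hf hD
  exact ⟨hE2, E, hE1, hE3⟩

/-- the shape of `gasm_theta` (G/Asm/Spec.lean), from the Kummer data over `ℂ` at `n = p`. -/
theorem gdq_gasm_theta (N : ℕ) [NeZero N] (p : ℕ) [Fact p.Prime]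
    (X : gasmPEHoms N (ZMod p) → gdqFC N)
    (hX0 : ∀ χ, X χ ≠ 0)
    (hXdiv : ∀ χ, GdDiv ℂ (gdqFC N) p (X χ))
    (hXadd : ∀ χ χ', GdRel p (X χ * X χ') (X (χ + χ')))
    (hXinj : ∀ χ, GdRel p 1 (X χ) → χ = 0)
    (hfin : ∃ S : Finset (gdqFC N), ∀ x' : gdqFC N, x' ≠ 0 →
      GdDiv ℂ (gdqFC N) p x' → ∃ s ∈ S, GdRel p s x')
    (hHecke : ∀ (ℓ : ℕ) [Fact ℓ.Prime] (hℓN : ¬ ℓ ∣ N) (_ : ¬ ℓ ∣ p)
      (χ χ' : gasmPEHoms N (ZMod p)),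
      (χ' : s16lbAb N →+ ZMod p) = (χ : s16lbAb N →+ ZMod p).comp (gasmTr N ℓ hℓN) →
      ∀ f : modularFunctionFieldBar N, f ≠ 0 → GdRel p (gdqIota N f) (X χ) →
        haveI : NeZero ℓ := ⟨(Fact.out : ℓ.Prime).ne_zero⟩
        GdRel p (gdqIota N (gHeckeFun N ℓ f)) (X χ')) :
    ∃ Θ : gasmPEHoms N (ZMod p) →+ JZero N, Function.Injective Θ ∧
      ∀ (ℓ : ℕ) [Fact ℓ.Prime] (hℓN : ¬ ℓ ∣ N) (_ : ℓ ≠ p) (χ χ' : gasmPEHoms N (ZMod p)),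
        (χ' : s16lbAb N →+ ZMod p) = (χ : s16lbAb N →+ ZMod p).comp (gasmTr N ℓ hℓN) →
          Θ χ' = heckeOperatorBar N ⟨ℓ, Fact.out⟩ (Θ χ) := by
  obtain ⟨Θ, hinj, -, hT⟩ := gdq_theta_asm N p (Fact.out : p.Prime).pos X hX0 hXdiv hXadd hXinj
    hfin hHecke
  refine ⟨Θ, hinj, fun ℓ _ hℓN hℓp χ χ' hχ => hT ℓ hℓN ?_ χ χ' hχ⟩
  intro hdvd
  exact hℓp ((Nat.prime_dvd_prime_iff_eq (Fact.out : ℓ.Prime) (Fact.out : p.Prime)).mp hdvd)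

end Fermat.Agent.G
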